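import Fermat.Agent.Cosets.Presentation

/-!
# Elements of `SL(2, ℤ)` of trace at most two in absolute value

## Main results

* `isClassified_of_trace_sq_le`: every such element is conjugate to `± T ^ n`, `± S` or
  `± U^{±1}`, where `U = T S`.
-/

set_option autoImplicit false

open scoped MatrixGroups
open ModularGroup Fermat.Agent.Cosets.Presentation

namespace Fermat.Agent.Cosets.TraceClass

/-- The normal forms. -/
def IsNormalForm (g : SL(2, ℤ)) : Prop :=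
  ∃ h : SL(2, ℤ), (g = h ∨ g = -h) ∧ ((∃ n : ℤ, h = T ^ n) ∨ h = S ∨ h = matU ∨ h = matU⁻¹)

/-- Conjugate to a normal form. -/
def IsClassified (g : SL(2, ℤ)) : Prop := ∃ r : SL(2, ℤ), IsNormalForm (r * g * r⁻¹)

theorem IsClassified.of_conj {g : SL(2, ℤ)} (r : SL(2, ℤ))
    (h : IsClassified (r * g * r⁻¹)) : IsClassified g := by
  obtain ⟨s, hs⟩ := h
  exact ⟨s * r, by simpa [mul_assoc] using hs⟩

theorem IsClassified.of_neg {g : SL(2, ℤ)} (h : IsClassified (-g)) : IsClassified g := by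
  obtain ⟨r, h, hh, hn⟩ := h
  refine ⟨r, h, ?_, hn⟩
  rw [mul_neg, neg_mul, neg_eq_iff_eq_neg, neg_inj] at hh
  exact hh.symm

theorem trace_eq (g : SL(2, ℤ)) :
    (g : Matrix (Fin 2) (Fin 2) ℤ).trace = g 0 0 + g 1 1 := Matrix.trace_fin_two _

theorem trace_conj (r g : SL(2, ℤ)) :
    ((r * g * r⁻¹ : SL(2, ℤ)) : Matrix (Fin 2) (Fin 2) ℤ).trace
      = (g : Matrix (Fin 2) (Fin 2) ℤ).trace := by
  rw [Matrix.SpecialLinearGroup.coe_mul, Matrix.trace_mul_comm,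
    ← Matrix.SpecialLinearGroup.coe_mul, inv_mul_cancel_left]

theorem det_eq (g : SL(2, ℤ)) : g 0 0 * g 1 1 - g 0 1 * g 1 0 = 1 := by
  rw [← Matrix.det_fin_two]; exact g.2

theorem conj_T_zpow (g : SL(2, ℤ)) (k : ℤ) :
    ((T ^ k * g * (T ^ k)⁻¹ : SL(2, ℤ)) : Matrix (Fin 2) (Fin 2) ℤ)
      = !![g 0 0 + k * g 1 0, -k * (g 0 0 + k * g 1 0) + g 0 1 + k * g 1 1;
           g 1 0, g 1 1 - k * g 1 0] := by
  rw [← zpow_neg]
  rw [Matrix.SpecialLinearGroup.coe_mul, Matrix.SpecialLinearGroup.coe_mul, coe_T_zpow,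
    coe_T_zpow, Matrix.eta_fin_two (g : Matrix (Fin 2) (Fin 2) ℤ)]
  ext i j
  fin_cases i <;> fin_cases j <;> simp <;> ring

theorem conj_S (g : SL(2, ℤ)) :
    ((S * g * S⁻¹ : SL(2, ℤ)) : Matrix (Fin 2) (Fin 2) ℤ)
      = !![g 1 1, -g 1 0; -g 0 1, g 0 0] := by
  rw [S_inv]
  rw [Matrix.SpecialLinearGroup.coe_mul, Matrix.SpecialLinearGroup.coe_mul,
    Matrix.SpecialLinearGroup.coe_neg, coe_S, Matrix.eta_fin_two (g : Matrix (Fin 2) (Fin 2) ℤ)]
  ext i j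
  fin_cases i <;> fin_cases j <;> simp

theorem eq_T_zpow {g : SL(2, ℤ)} (h10 : g 1 0 = 0)
    (ht : g 0 0 + g 1 1 = 2) : g = T ^ (g 0 1) := by
  have hd := det_eq g
  rw [h10, mul_zero, sub_zero] at hd
  have h00 : g 0 0 = 1 := by nlinarith
  have h11 : g 1 1 = 1 := by omega
  ext i j
  rw [coe_T_zpow]
  fin_cases i <;> fin_cases j <;> simp [h00, h11, h10]

theorem parabolic_two {g : SL(2, ℤ)} (ht : g 0 0 + g 1 1 = 2) : IsClassified g := by
  by_cases h10 : g 1 0 = 0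
  · exact ⟨1, _, Or.inl rfl, Or.inl ⟨g 0 1, by simpa using eq_T_zpow h10 ht⟩⟩
  obtain ⟨p, q, hp, hq, hpq⟩ := extract_gcd (g 0 0 - 1) (g 1 0)
  obtain ⟨u, w, huw⟩ : IsCoprime p q := (gcd_isUnit_iff p q).mp hpq
  set k := GCDMonoid.gcd (g 0 0 - 1) (g 1 0) with hk
  have hk0 : k ≠ 0 := by
    intro h; rw [h, zero_mul] at hq; exact h10 hq
  let r : SL(2, ℤ) := ⟨!![u, w; -q, p], by rw [Matrix.det_fin_two_of]; linear_combination huw⟩
  refine ⟨r, _, Or.inl rfl, Or.inl ⟨(r * g * r⁻¹) 0 1, eq_T_zpow ?_ ?_⟩⟩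
  · have e : (r * g * r⁻¹ : SL(2, ℤ)) 1 0
        = g 1 0 * p * p + (g 1 1 - g 0 0) * p * q - g 0 1 * q * q := by
      rw [Matrix.SpecialLinearGroup.coe_mul, Matrix.SpecialLinearGroup.coe_mul,
        Matrix.SpecialLinearGroup.coe_inv, show (r : Matrix (Fin 2) (Fin 2) ℤ) = !![u, w; -q, p]
          from rfl, Matrix.adjugate_fin_two_of, Matrix.eta_fin_two (g : Matrix (Fin 2) (Fin 2) ℤ)]
      simp
      ring
    rw [e]
    refine (mul_left_cancel₀ (mul_ne_zero hk0 hk0) ?_)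
    rw [mul_zero]
    have hd := det_eq g
    calc k * k * (g 1 0 * p * p + (g 1 1 - g 0 0) * p * q - g 0 1 * q * q)
        = g 1 0 * (k * p) * (k * p) + (g 1 1 - g 0 0) * (k * p) * (k * q)
          - g 0 1 * (k * q) * (k * q) := by ring
      _ = 0 := by
        rw [← hp, ← hq]
        linear_combination (g 1 0) * hd - (g 1 0) * ht
  · rw [← trace_eq, trace_conj, trace_eq, ht]

theorem exists_abs_add_le (x c : ℤ) (hc : c ≠ 0) : ∃ k : ℤ, |x + 2 * k * c| ≤ |c| := by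
  have hpos : 0 < |c| := abs_pos.mpr hc
  have h1 := Int.emod_add_mul_ediv (x + |c|) (2 * |c|)
  have h2 := Int.emod_nonneg (x + |c|) (by omega : 2 * |c| ≠ 0)
  have h3 := Int.emod_lt_of_pos (x + |c|) (by omega : 0 < 2 * |c|)
  generalize (x + |c|) % (2 * |c|) = r at h1 h2 h3
  generalize (x + |c|) / (2 * |c|) = q at h1
  rcases abs_cases c with ⟨h, _⟩ | ⟨h, _⟩
  · refine ⟨-q, ?_⟩
    rw [h] at h1 h3 ⊢
    rw [abs_le]; constructor <;> linarith
  · refine ⟨q, ?_⟩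
    rw [h] at h1 h3 ⊢
    rw [abs_le]; constructor <;> linarith

theorem elliptic_aux : ∀ (n : ℕ) (g : SL(2, ℤ)), (g 1 0).natAbs = n →
    (g 0 0 + g 1 1) ^ 2 < 4 → IsClassified g := by
  intro n
  induction n using Nat.strong_induction_on with
  | _ n ih =>
    intro g hn ht
    have hd := det_eq g
    have hc : g 1 0 ≠ 0 := by
      intro h; rw [h] at hd; nlinarith [mul_self_nonneg (g 0 0 - g 1 1)]
    obtain ⟨k, hk⟩ := exists_abs_add_le (g 0 0 - g 1 1) (g 1 0) hc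
    refine IsClassified.of_conj (T ^ k) ?_
    set g₁ := T ^ k * g * (T ^ k)⁻¹ with hg₁
    have e : (g₁ : Matrix (Fin 2) (Fin 2) ℤ) = _ := conj_T_zpow g k
    have h10 : g₁ 1 0 = g 1 0 := by rw [e]; rfl
    have hdiag : |g₁ 0 0 - g₁ 1 1| ≤ |g₁ 1 0| := by
      rw [h10, show g₁ 0 0 = g 0 0 + k * g 1 0 by rw [e]; rfl,
        show g₁ 1 1 = g 1 1 - k * g 1 0 by rw [e]; rfl]
      refine le_trans (le_of_eq ?_) hk
      congr 1; ring
    have ht₁ : (g₁ 0 0 + g₁ 1 1) ^ 2 < 4 := by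
      rw [← trace_eq, hg₁, trace_conj, trace_eq]; exact ht
    rcases Nat.lt_or_ge (g₁ 0 1).natAbs n with hlt | hge
    · refine IsClassified.of_conj S (ih _ hlt _ ?_ ?_)
      · rw [conj_S]; simp
      · rw [← trace_eq, trace_conj, trace_eq]; exact ht₁
    · have hd₁ := det_eq g₁
      have hbc : |g₁ 0 1| ≥ |g₁ 1 0| := by
        rw [h10, Int.abs_eq_natAbs, Int.abs_eq_natAbs]; exact_mod_cast hn.symm ▸ hge
      have hc1 : (g₁ 1 0).natAbs = 1 := by
        have hsq : (g₁ 0 0 - g₁ 1 1) ^ 2 ≤ (g₁ 1 0) ^ 2 := sq_le_sq.mpr hdiag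
        have hneg : g₁ 0 1 * g₁ 1 0 < 0 := by
          nlinarith [sq_nonneg (g₁ 0 0 - g₁ 1 1)]
        have hmul : (g₁ 1 0) ^ 2 ≤ -(g₁ 0 1 * g₁ 1 0) := by
          rw [← abs_of_neg hneg, abs_mul, ← sq_abs, pow_two]
          exact mul_le_mul_of_nonneg_right hbc (abs_nonneg _)
        have : (g₁ 1 0) ^ 2 ≤ 1 := by nlinarith [sq_nonneg (g₁ 0 0 + g₁ 1 1)]
        have h0 : g₁ 1 0 ≠ 0 := h10 ▸ hc
        have h2 : |g₁ 1 0| ≤ 1 := sq_le_one_iff_abs_le_one _ |>.mp this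
        rw [abs_le] at h2
        omega
      refine IsClassified.of_conj (T ^ (-(g₁ 0 0 * g₁ 1 0))) ?_
      set g₂ := T ^ (-(g₁ 0 0 * g₁ 1 0)) * g₁ * (T ^ (-(g₁ 0 0 * g₁ 1 0)))⁻¹ with hg₂
      have e₂ : (g₂ : Matrix (Fin 2) (Fin 2) ℤ) = _ := conj_T_zpow g₁ _
      have hcc : g₁ 1 0 * g₁ 1 0 = 1 := by
        rcases Int.natAbs_eq_iff.mp hc1 with h | h <;> rw [h] <;> norm_num
      have h00 : g₂ 0 0 = 0 := by
        rw [show g₂ 0 0 = g₁ 0 0 + -(g₁ 0 0 * g₁ 1 0) * g₁ 1 0 by rw [e₂]; rfl]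
        linear_combination -(g₁ 0 0) * hcc
      have h10' : g₂ 1 0 = g₁ 1 0 := by rw [e₂]; rfl
      have ht₂ : (g₂ 0 0 + g₂ 1 1) ^ 2 < 4 := by
        rw [← trace_eq, hg₂, trace_conj, trace_eq]; exact ht₁
      have hd₂ := det_eq g₂
      rw [h00] at ht₂ hd₂
      have ht3 : g₂ 1 1 = -1 ∨ g₂ 1 1 = 0 ∨ g₂ 1 1 = 1 := by
        have h1 : g₂ 1 1 < 2 := by nlinarith
        have h2 : -2 < g₂ 1 1 := by nlinarith
        omega
      have key : ∀ c t : ℤ, (c = 1 ∨ c = -1) → (t = -1 ∨ t = 0 ∨ t = 1) →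
          ∀ h : SL(2, ℤ), (h : Matrix (Fin 2) (Fin 2) ℤ) = !![0, -c; c, t] → IsClassified h := by
        intro c t hc ht h hh
        rcases hc with rfl | rfl <;> rcases ht with rfl | rfl | rfl
        · obtain rfl : h = -matU⁻¹ := Subtype.ext (hh.trans (by decide))
          exact ⟨1, matU⁻¹, Or.inr (by simp), Or.inr (Or.inr (Or.inr rfl))⟩
        · obtain rfl : h = S := Subtype.ext (hh.trans (by decide))
          exact ⟨1, S, Or.inl (by simp), Or.inr (Or.inl rfl)⟩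
        · obtain rfl : h = S * T := Subtype.ext (hh.trans (by decide))
          exact ⟨T, matU, Or.inl (by decide), Or.inr (Or.inr (Or.inl rfl))⟩
        · obtain rfl : h = -(S * T) := Subtype.ext (hh.trans (by decide))
          exact ⟨T, matU, Or.inr (by decide), Or.inr (Or.inr (Or.inl rfl))⟩
        · obtain rfl : h = -S := Subtype.ext (hh.trans (by decide))
          exact ⟨1, S, Or.inr (by simp), Or.inr (Or.inl rfl)⟩
        · obtain rfl : h = matU⁻¹ := Subtype.ext (hh.trans (by decide))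
          exact ⟨1, matU⁻¹, Or.inl (by simp), Or.inr (Or.inr (Or.inr rfl))⟩
      refine key (g₂ 1 0) (g₂ 1 1) (by rw [h10']; exact Int.natAbs_eq_iff.mp hc1) ht3 g₂ ?_
      have h01 : g₂ 0 1 = -g₂ 1 0 := by
        rw [← h10'] at hcc
        linear_combination -(g₂ 1 0) * hd₂ - (g₂ 0 1) * hcc
      ext i j
      fin_cases i <;> fin_cases j <;> simp [h00, h01]

/-- Classification of elements with `trace ^ 2 ≤ 4`. -/
theorem isClassified_of_trace_sq_le {g : SL(2, ℤ)}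
    (ht : (g : Matrix (Fin 2) (Fin 2) ℤ).trace ^ 2 ≤ 4) : IsClassified g := by
  rw [trace_eq] at ht
  rcases lt_or_eq_of_le ht with h | h
  · exact elliptic_aux _ g rfl h
  · rcases sq_eq_sq_iff_eq_or_eq_neg.mp (h.trans (by norm_num : (4 : ℤ) = 2 ^ 2)) with h | h
    · exact parabolic_two h
    · refine IsClassified.of_neg (parabolic_two ?_)
      simp; linarith

end Fermat.Agent.Cosets.TraceClass
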