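import Fermat.Agent.Cosets.Cocycle
import Fermat.Prelude.Def_ModularCurve_PeriodMap
import Fermat.Agent.Cosets.TraceClass

/-!
# Homomorphisms killing elliptic and parabolic elements

For a finite transitive `SL(2, ℤ)`-set on which `-1` acts trivially, the homomorphisms
`stabilizer → A` killing all elements with `trace ^ 2 ≤ 4` form a free `A`-module of rank the first
Betti number of the coset surface.

## Main results

* `parEllHoms`: these homomorphisms, as a submodule.
* `parabolicHoms_eq_parEllHoms`: they are the parabolic homomorphisms when `A` has no 12-torsion.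
* `exists_integral_basis`: one integral basis works for every coefficient module.
-/

set_option autoImplicit false

open scoped MatrixGroups
open ModularGroup Fermat.Agent.Cosets.Presentation Fermat.Agent.Cosets.Cocycle

namespace Fermat.Agent.Cosets

noncomputable section

section Def

variable (R : Type*) [Semiring R] (Γ : Subgroup SL(2, ℤ)) (A : Type*) [AddCommGroup A] [Module R A]

/-- Homomorphisms killing elliptic and parabolic elements (`trace ^ 2 ≤ 4`). -/
def parEllHoms : Submodule R (Additive Γ →+ A) where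
  carrier := {φ | ∀ γ : Γ, ((γ : SL(2, ℤ)) : Matrix (Fin 2) (Fin 2) ℤ).trace ^ 2 ≤ 4 →
    φ (Additive.ofMul γ) = 0}
  zero_mem' := fun _ _ => rfl
  add_mem' := fun {φ ψ} hφ hψ γ hγ => by
    show φ _ + ψ _ = 0
    rw [hφ γ hγ, hψ γ hγ, add_zero]
  smul_mem' := fun c φ hφ γ hγ => by
    show c • φ _ = 0
    rw [hφ γ hγ, smul_zero]

variable {R Γ A}

theorem mem_parEllHoms_iff {φ : Additive Γ →+ A} :
    φ ∈ parEllHoms R Γ A ↔ ∀ γ : Γ, ((γ : SL(2, ℤ)) : Matrix (Fin 2) (Fin 2) ℤ).trace ^ 2 ≤ 4 →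
      φ (Additive.ofMul γ) = 0 := Iff.rfl

theorem trace_T_zpow (n : ℤ) :
    (((T : SL(2, ℤ)) ^ n : SL(2, ℤ)) : Matrix (Fin 2) (Fin 2) ℤ).trace = 2 := by
  rw [coe_T_zpow, Matrix.trace_fin_two_of]; norm_num

theorem trace_sq_eq_four_or_pow_twelve {g : SL(2, ℤ)}
    (h : (g : Matrix (Fin 2) (Fin 2) ℤ).trace ^ 2 ≤ 4) :
    (g : Matrix (Fin 2) (Fin 2) ℤ).trace ^ 2 = 4 ∨ g ^ 12 = 1 := by
  obtain ⟨r, u, hu, hn⟩ := TraceClass.isClassified_of_trace_sq_le h
  rw [← TraceClass.trace_conj r g]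
  have fin : u ^ 12 = 1 → g ^ 12 = 1 := fun h12 => by
    have : (r * g * r⁻¹) ^ 12 = 1 := by
      rcases hu with hu | hu <;> rw [hu]
      · exact h12
      · rw [Even.neg_pow (by decide), h12]
    rw [conj_pow] at this
    exact (conj_eq_one_iff).mp this
  rcases hn with ⟨n, rfl⟩ | rfl | rfl | rfl
  · left
    rcases hu with hu | hu <;> rw [hu]
    · rw [trace_T_zpow]; norm_num
    · rw [Matrix.SpecialLinearGroup.coe_neg, Matrix.trace_neg, trace_T_zpow]; norm_num
  · exact Or.inr (fin (by decide))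
  · exact Or.inr (fin (by decide))
  · exact Or.inr (fin (by decide))

variable (R Γ A)

theorem parEllHoms_le_parabolicHoms :
    parEllHoms R Γ A ≤ ModularCurve.Period.parabolicHoms R Γ A :=
  fun _ hφ γ hγ => hφ γ hγ.le

/-- Without 12-torsion in `A`, parabolic homomorphisms also kill the elliptic elements. -/
theorem parabolicHoms_eq_parEllHoms (hA : ∀ a : A, (12 : ℕ) • a = 0 → a = 0) :
    ModularCurve.Period.parabolicHoms R Γ A = parEllHoms R Γ A := by
  refine le_antisymm (fun φ hφ γ hγ => ?_) (parEllHoms_le_parabolicHoms R Γ A)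
  rcases trace_sq_eq_four_or_pow_twelve hγ with h | h
  · exact hφ γ h
  · apply hA
    have : γ ^ 12 = 1 := Subtype.ext (by simpa using h)
    rw [← map_nsmul, ← ofMul_pow, this, ofMul_one, map_zero]

end Def

section General

variable {X : Type*} [MulAction SL(2, ℤ) X] [MulAction.IsPretransitive SL(2, ℤ) X] [Fintype X]
  (hneg : TrivNegOne X) (x₀ : X)

omit [Fintype X] in
theorem connected : Graph.Connected (permS X) (permU X) := by
  intro P hS hU x y hx
  let H : Subgroup SL(2, ℤ) :=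
    { carrier := {g | ∀ z : X, P (g • z) ↔ P z}
      one_mem' := fun z => by rw [one_smul]
      mul_mem' := fun {a b} ha hb z => by rw [mul_smul, ha, hb]
      inv_mem' := fun {a} ha z => by rw [← ha (a⁻¹ • z), smul_inv_smul] }
  obtain ⟨g, rfl⟩ := MulAction.exists_smul_eq SL(2, ℤ) x y
  exact (mem_of_S_matU (H := H) hS hU g x).mpr hx

theorem apply_eq_of_sameCycle {α β : Type*} [Finite α] {f : α → β} {p : Equiv.Perm α}
    (hf : ∀ z, f (p z) = f z) {a b : α} (h : p.SameCycle a b) : f a = f b := by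
  obtain ⟨n, rfl⟩ := h.exists_nat_pow_eq
  clear h
  induction n with
  | zero => rfl
  | succ n ih => rw [pow_succ', Equiv.Perm.mul_apply, hf, ← ih]

theorem pow_twelve_zpow (g : SL(2, ℤ)) (h : g ^ 12 = 1)
    (hk : ∀ k < 12, ((g ^ k : SL(2, ℤ)) : Matrix (Fin 2) (Fin 2) ℤ).trace ^ 2 ≤ 4) (n : ℤ) :
    ((g ^ n : SL(2, ℤ)) : Matrix (Fin 2) (Fin 2) ℤ).trace ^ 2 ≤ 4 := by
  have h0 : 0 ≤ n % 12 := Int.emod_nonneg _ (by norm_num)
  have : g ^ n = g ^ (n % 12).toNat := by
    rw [zpow_eq_zpow_emod' n h, ← zpow_natCast, Int.toNat_of_nonneg h0]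
    norm_num
  rw [this]
  exact hk _ (by have := Int.emod_lt_of_pos n (by norm_num : (0 : ℤ) < 12); omega)

variable {R : Type*} [Semiring R] {A : Type*} [AddCommGroup A] [Module R A]

include hneg

omit [MulAction.IsPretransitive SL(2, ℤ) X] in
theorem cocycleOf_fixed_eq_zero {y : X → A}
    (hy : Graph.faceMap (permS X) (permU X) R A y = 0) {g : SL(2, ℤ)} {x : X}
    (hx : g • x = x) (hg : (g : Matrix (Fin 2) (Fin 2) ℤ).trace ^ 2 ≤ 4) :
    cocycleOf hneg y g x = 0 := by
  have hc := cocycleOf_isCocycle hneg y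
  obtain ⟨r, u, hu, hn⟩ := TraceClass.isClassified_of_trace_sq_le hg
  rw [← hc.conj r g hx]
  have hfix : (r * g * r⁻¹) • (r • x) = r • x := by rw [mul_smul, inv_smul_smul, mul_smul, hx]
  generalize r • x = z at hfix
  generalize r * g * r⁻¹ = k at hfix hu
  have hku : cocycleOf hneg y k z = cocycleOf hneg y u z ∧ u • z = z := by
    rcases hu with rfl | rfl
    · exact ⟨rfl, hfix⟩
    · exact ⟨cocycleOf_neg hneg _ _ _, by rwa [neg_smul_eq hneg] at hfix⟩
  obtain ⟨hcu, hz⟩ := hku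
  rw [hcu]
  rcases hn with ⟨n, rfl⟩ | rfl | rfl | rfl
  · have hpos : ∀ m : ℕ, (T : SL(2, ℤ)) ^ m • z = z → cocycleOf hneg y (T ^ m) z = 0 := by
      intro m hm
      have hiter : ∀ i : ℕ, ((T : SL(2, ℤ)) • ·)^[i] z = (T : SL(2, ℤ)) ^ i • z := fun i => by
        rw [smul_iterate]
      obtain ⟨k, rfl⟩ : Function.minimalPeriod ((T : SL(2, ℤ)) • ·) z ∣ m :=
        Function.IsPeriodicPt.minimalPeriod_dvd (show _ = z by rw [hiter, hm])
      rw [hc.map_pow_mul _ (by rw [← hiter]; exact Function.iterate_minimalPeriod),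
        ← faceMap_eq_cocycle hneg R, hy]
      simp
    rcases Int.eq_nat_or_neg n with ⟨m, rfl | rfl⟩
    · rw [zpow_natCast] at hz ⊢; exact hpos m hz
    · rw [zpow_neg, zpow_natCast] at hz ⊢
      rw [inv_smul_eq_iff, eq_comm] at hz
      rw [hc.map_inv', inv_smul_eq_iff.mpr hz.symm, hpos m hz, neg_zero]
  · exact cocycleOf_S hneg y z
  · rw [cocycleOf_matU, hz, sub_self]
  · rw [hc.map_inv', hz, cocycleOf_matU, inv_smul_eq_iff.mp hz |>.symm, sub_self, neg_zero]

omit [MulAction.IsPretransitive SL(2, ℤ) X] in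
theorem periodOf_mem {y : X → A} (hy : Graph.faceMap (permS X) (permU X) R A y = 0) :
    periodOf hneg R x₀ y ∈ parEllHoms R (MulAction.stabilizer SL(2, ℤ) x₀) A :=
  fun γ hγ => cocycleOf_fixed_eq_zero hneg hy γ.2 hγ

omit [MulAction.IsPretransitive SL(2, ℤ) X] [Fintype X] in
theorem periodOf_coboundary (v : Graph.Vertex (permS X) (permU X) → A) :
    periodOf hneg R x₀ (Graph.coboundary (permS X) (permU X) R A v) = 0 := by
  let w : X → A := fun x => v (Sum.inl (Quotient.mk _ x))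
  have hS : ∀ x, (Quotient.mk (Equiv.Perm.SameCycle.setoid (permS X)) ((S : SL(2, ℤ)) • x))
      = Quotient.mk _ x := fun x => Quotient.sound
    ((Equiv.Perm.sameCycle_apply_left (f := permS X)).mpr ⟨0, rfl⟩)
  have hU : ∀ x, (Quotient.mk (Equiv.Perm.SameCycle.setoid (permU X)) (matU • x))
      = Quotient.mk _ x := fun x => Quotient.sound
    ((Equiv.Perm.sameCycle_apply_left (f := permU X)).mpr ⟨0, rfl⟩)
  have key : cocycleOf hneg (Graph.coboundary (permS X) (permU X) R A v)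
      = fun g x => w (g • x) - w x := by
    refine cocycleOf_eq hneg (fun g h x => ?_) (fun x => ?_) (fun x => ?_)
    · simp [mul_smul]
    · simp only [w, hS, sub_self]
    · simp only [w, Graph.coboundary_apply, hU]; abel
  ext γ
  show cocycleOf hneg _ γ x₀ = 0
  rw [key]
  show w ((γ : SL(2, ℤ)) • x₀) - w x₀ = 0
  rw [MulAction.mem_stabilizer_iff.mp γ.2, sub_self]

theorem exists_coboundary_of_periodOf_eq_zero {y : X → A} (h : periodOf hneg R x₀ y = 0) :
    ∃ v, y = Graph.coboundary (permS X) (permU X) R A v := by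
  have hc := cocycleOf_isCocycle hneg y
  choose r hr using fun x : X => MulAction.exists_smul_eq SL(2, ℤ) x₀ x
  let w : X → A := fun x => cocycleOf hneg y (r x) x₀
  have hw : ∀ g x, cocycleOf hneg y g x = w (g • x) - w x := by
    intro g x
    have hmem : (r (g • x))⁻¹ * (g * r x) ∈ MulAction.stabilizer SL(2, ℤ) x₀ := by
      rw [MulAction.mem_stabilizer_iff, mul_smul, mul_smul, hr, inv_smul_eq_iff, hr]
    have h0 : cocycleOf hneg y ((r (g • x))⁻¹ * (g * r x)) x₀ = 0 :=
      DFunLike.congr_fun h (Additive.ofMul ⟨_, hmem⟩)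
    have h1 := hc (r (g • x)) ((r (g • x))⁻¹ * (g * r x)) x₀
    rw [mul_inv_cancel_left, MulAction.mem_stabilizer_iff.mp hmem, h0, add_zero, hc, hr] at h1
    exact eq_sub_of_add_eq h1
  have hwS : ∀ x, w (permS X x) = w x := fun x => by
    have := hw S x
    rw [cocycleOf_S, eq_comm, sub_eq_zero] at this
    exact this
  have hzU : ∀ x, (y - w) (permU X x) = (y - w) x := fun x => by
    have := hw matU x
    rw [cocycleOf_matU] at this
    simp only [Pi.sub_apply, MulAction.toPerm_apply]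
    rw [sub_eq_sub_iff_sub_eq_sub, this]
  refine ⟨Sum.elim (Quotient.lift w fun a b h => apply_eq_of_sameCycle hwS h)
    (Quotient.lift (y - w) fun a b h => apply_eq_of_sameCycle hzU h), ?_⟩
  funext x
  rw [Graph.coboundary_apply]
  simp

theorem exists_periodOf_eq {φ : Additive (MulAction.stabilizer SL(2, ℤ) x₀) →+ A}
    (hφ : φ ∈ parEllHoms R (MulAction.stabilizer SL(2, ℤ) x₀) A) :
    ∃ y : X → A, Graph.faceMap (permS X) (permU X) R A y = 0 ∧ periodOf hneg R x₀ y = φ := by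
  choose r hr using fun x : X => MulAction.exists_smul_eq SL(2, ℤ) x₀ x
  have hmem : ∀ (g : SL(2, ℤ)) (x : X),
      (r (g • x))⁻¹ * (g * r x) ∈ MulAction.stabilizer SL(2, ℤ) x₀ := fun g x => by
    rw [MulAction.mem_stabilizer_iff, mul_smul, mul_smul, hr, inv_smul_eq_iff, hr]
  let c : SL(2, ℤ) → X → A := fun g x => φ (Additive.ofMul ⟨_, hmem g x⟩)
  have hc : IsCocycle c := fun g h x => by
    simp only [c, ← map_add, ← ofMul_mul]
    congr 2
    apply Subtype.ext
    simp only [Subgroup.coe_mul, mul_smul]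
    group
  have hfix : ∀ (g : SL(2, ℤ)) (x : X), g • x = x →
      (g : Matrix (Fin 2) (Fin 2) ℤ).trace ^ 2 ≤ 4 → c g x = 0 := by
    intro g x hx hg
    refine hφ _ ?_
    show ((((r (g • x))⁻¹ * (g * r x) : SL(2, ℤ))) : Matrix (Fin 2) (Fin 2) ℤ).trace ^ 2 ≤ 4
    rw [hx, ← mul_assoc]
    have := TraceClass.trace_conj (r x)⁻¹ g
    rw [inv_inv] at this
    rwa [this]
  obtain ⟨w, hw⟩ := hc.exists_primitive S fun n x hx =>
    hfix _ x hx (pow_twelve_zpow S (by decide) (by decide) n)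
  have hc' := hc.gauge w
  set c' := fun g x => c g x - w (g • x) + w x with hc'def
  have hfix' : ∀ (g : SL(2, ℤ)) (x : X), g • x = x →
      (g : Matrix (Fin 2) (Fin 2) ℤ).trace ^ 2 ≤ 4 → c' g x = 0 :=
    fun g x hx hg => by simp [hc'def, hfix g x hx hg, hx]
  obtain ⟨y, hy⟩ := hc'.exists_primitive matU fun n x hx =>
    hfix' _ x hx (pow_twelve_zpow matU (by decide) (by decide) n)
  have heq : cocycleOf hneg y = c' :=
    cocycleOf_eq hneg hc' (fun x => by simp [hc'def, hw]) hy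
  refine ⟨y, ?_, ?_⟩
  · funext q
    induction q using Quotient.inductionOn with
    | _ x =>
      rw [faceMap_eq_cocycle hneg, heq]
      refine hfix' _ x ?_ ?_
      · have := Function.iterate_minimalPeriod (f := ((T : SL(2, ℤ)) • ·)) (x := x)
        rwa [smul_iterate] at this
      · rw [← zpow_natCast, trace_T_zpow]; norm_num
  · ext γ
    show cocycleOf hneg y γ x₀ = φ (Additive.ofMul γ)
    rw [heq]
    have hγ : (γ : SL(2, ℤ)) • x₀ = x₀ := γ.2
    have hr₀ : r x₀ ∈ MulAction.stabilizer SL(2, ℤ) x₀ := hr x₀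
    simp only [hc'def, hγ, sub_add_cancel, c]
    have : ∀ h, (⟨(r x₀)⁻¹ * ((γ : SL(2, ℤ)) * r x₀), h⟩ : MulAction.stabilizer SL(2, ℤ) x₀)
        = ⟨_, hr₀⟩⁻¹ * (γ * ⟨_, hr₀⟩) := fun h => Subtype.ext (by simp)
    rw [this, ofMul_mul, ofMul_mul, ofMul_inv, map_add, map_add, map_neg]
    abel

omit hneg

variable [Nonempty X]

variable (X) in
/-- The first Betti number of the coset surface. -/
def surfaceRank : ℕ := (Graph.exists_splitting (connected (X := X))).choose

variable (X) in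
theorem surfaceRank_spec :
    ∃ (i : (Fin (surfaceRank X) → ℤ) →ₗ[ℤ] (X → ℤ))
      (p : (X → ℤ) →ₗ[ℤ] (Fin (surfaceRank X) → ℤ))
      (h₀ : (X → ℤ) →ₗ[ℤ] (Graph.Vertex (permS X) (permU X) → ℤ))
      (h₁ : (Graph.Face (permS X) (permU X) → ℤ) →ₗ[ℤ] (X → ℤ)),
      Fintype.card X + 2 = Fintype.card (Graph.Vertex (permS X) (permU X))
        + Fintype.card (Graph.Face (permS X) (permU X)) + surfaceRank X ∧
      Graph.faceMap (permS X) (permU X) ℤ ℤ ∘ₗ i = 0 ∧
      p ∘ₗ Graph.coboundary (permS X) (permU X) ℤ ℤ = 0 ∧ p ∘ₗ i = LinearMap.id ∧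
      i ∘ₗ p + Graph.coboundary (permS X) (permU X) ℤ ℤ ∘ₗ h₀
        + h₁ ∘ₗ Graph.faceMap (permS X) (permU X) ℤ ℤ = LinearMap.id :=
  (Graph.exists_splitting (connected (X := X))).choose_spec

include hneg

omit [Nonempty X] in
/-- A splitting of the complex identifies `A ^ r` with the homomorphisms killing elliptic and
parabolic elements. -/
theorem exists_bijective_parEllHoms {r : ℕ} (i : (Fin r → ℤ) →ₗ[ℤ] (X → ℤ))
    (p : (X → ℤ) →ₗ[ℤ] (Fin r → ℤ))
    (h₀ : (X → ℤ) →ₗ[ℤ] (Graph.Vertex (permS X) (permU X) → ℤ))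
    (h₁ : (Graph.Face (permS X) (permU X) → ℤ) →ₗ[ℤ] (X → ℤ))
    (hbi : Graph.faceMap (permS X) (permU X) ℤ ℤ ∘ₗ i = 0)
    (hpd : p ∘ₗ Graph.coboundary (permS X) (permU X) ℤ ℤ = 0) (hpi : p ∘ₗ i = LinearMap.id)
    (hdec : i ∘ₗ p + Graph.coboundary (permS X) (permU X) ℤ ℤ ∘ₗ h₀
      + h₁ ∘ₗ Graph.faceMap (permS X) (permU X) ℤ ℤ = LinearMap.id) :
    ∃ f : (Fin r → A) →ₗ[R] parEllHoms R (MulAction.stabilizer SL(2, ℤ) x₀) A,
      Function.Bijective f ∧ ∀ a, (f a : Additive (MulAction.stabilizer SL(2, ℤ) x₀) →+ A)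
        = periodOf hneg R x₀ (Graph.extMap R A i a) := by
  have hface : ∀ a, Graph.faceMap (permS X) (permU X) R A (Graph.extMap R A i a) = 0 := fun a => by
    rw [← Graph.extMap_faceMap, ← Graph.extMap_comp, hbi, Graph.extMap_zero]
  refine ⟨LinearMap.codRestrict _ (periodOf hneg R x₀ ∘ₗ Graph.extMap R A i)
    fun a => periodOf_mem hneg x₀ (hface a), ⟨?_, ?_⟩, fun a => rfl⟩
  · rw [injective_iff_map_eq_zero]
    intro a ha
    obtain ⟨v, hv⟩ := exists_coboundary_of_periodOf_eq_zero hneg x₀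
      (R := R) (y := Graph.extMap R A i a) (congrArg Subtype.val ha)
    calc a = Graph.extMap R A p (Graph.extMap R A i a) := by
          rw [← Graph.extMap_comp, hpi, Graph.extMap_id]
      _ = 0 := by
          rw [hv, ← Graph.extMap_coboundary, ← Graph.extMap_comp, hpd, Graph.extMap_zero]
  · intro φ
    obtain ⟨y, hy, hφ⟩ := exists_periodOf_eq hneg x₀ φ.2
    refine ⟨Graph.extMap R A p y, Subtype.ext ?_⟩
    have h := congrArg (fun L => Graph.extMap R A L y) hdec
    simp only [Graph.extMap_add, Graph.extMap_comp, Graph.extMap_id, Graph.extMap_faceMap, hy,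
      map_zero, add_zero, Graph.extMap_coboundary] at h
    show periodOf hneg R x₀ (Graph.extMap R A i (Graph.extMap R A p y)) = φ
    conv_rhs => rw [← hφ, ← h, map_add, periodOf_coboundary hneg, add_zero]

omit [MulAction.IsPretransitive SL(2, ℤ) X] [Fintype X] [Nonempty X] in
theorem cocycleOf_extMap {r : ℕ} (i : (Fin r → ℤ) →ₗ[ℤ] (X → ℤ)) (a : Fin r → A) :
    cocycleOf hneg (Graph.extMap R A i a)
      = fun g x => ∑ j, cocycleOf hneg (i (Pi.single j 1)) g x • a j := by
  refine cocycleOf_eq hneg (fun g h x => ?_) (fun x => ?_) (fun x => ?_)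
  · simp only [cocycleOf_isCocycle hneg (i (Pi.single _ 1)) g h x, add_smul, Finset.sum_add_distrib]
  · simp [cocycleOf_S]
  · simp [cocycleOf_matU, Graph.extMap_apply, sub_smul, Finset.sum_sub_distrib]

variable (R A) in
/-- An integral basis works for every coefficient module. -/
theorem exists_integral_basis {Γ : Subgroup SL(2, ℤ)}
    (hΓ : MulAction.stabilizer SL(2, ℤ) x₀ = Γ) :
    ∃ b : Fin (surfaceRank X) → parEllHoms ℤ Γ ℤ,
      ∀ (R' : Type*) [Semiring R'] (A' : Type*) [AddCommGroup A'] [Module R' A'],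
        ∃ e : (Fin (surfaceRank X) → A') ≃ₗ[R'] parEllHoms R' Γ A',
          ∀ a γ, (e a : Additive Γ →+ A') γ = ∑ j, (b j : Additive Γ →+ ℤ) γ • a j := by
  subst hΓ
  obtain ⟨i, p, h₀, h₁, -, hbi, hpd, hpi, hdec⟩ := surfaceRank_spec X
  refine ⟨fun j => ⟨periodOf hneg ℤ x₀ (i (Pi.single j 1)),
    periodOf_mem hneg x₀ (LinearMap.congr_fun hbi _)⟩, fun R' _ A' _ _ => ?_⟩
  obtain ⟨f, hf, hspec⟩ := exists_bijective_parEllHoms hneg x₀ (R := R') (A := A') i p h₀ h₁
    hbi hpd hpi hdec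
  refine ⟨LinearEquiv.ofBijective f hf, fun a γ => ?_⟩
  show (f a : Additive _ →+ A') γ = _
  rw [hspec]
  show cocycleOf hneg (Graph.extMap R' A' i a) _ x₀ = _
  rw [cocycleOf_extMap hneg]
  rfl

/-- These homomorphisms form `A ^ surfaceRank`. -/
theorem nonempty_linearEquiv_parEllHoms {Γ : Subgroup SL(2, ℤ)}
    (hΓ : MulAction.stabilizer SL(2, ℤ) x₀ = Γ) :
    Nonempty ((Fin (surfaceRank X) → A) ≃ₗ[R] parEllHoms R Γ A) := by
  subst hΓ
  obtain ⟨i, p, h₀, h₁, -, hbi, hpd, hpi, hdec⟩ := surfaceRank_spec X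
  obtain ⟨f, hf, -⟩ := exists_bijective_parEllHoms hneg x₀ (R := R) (A := A) i p h₀ h₁
    hbi hpd hpi hdec
  exact ⟨LinearEquiv.ofBijective f hf⟩

end General

end

end Fermat.Agent.Cosets
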