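import Mathlib
import Fermat.Prelude.Def_ModularCurve_GenusNumerics

/-!
# The coset space of `Γ₀(N)`

`Coset N` is `SL(2, ℤ) ⧸ Γ₀(N)` with the left multiplication action, seen as `ℙ¹(ℤ/N)` through
the first column.

## Main results

* `mk_eq_mk_iff_zmod`: two classes are equal iff the first columns are proportional modulo `N`.
* `card_fixed_S`, `card_fixed_ST`: `S` fixes `ν₂(N)` cosets and `S T` fixes `ν₃(N)` cosets.
-/

namespace Fermat.Agent.Cosets

open CongruenceSubgroup ModularGroup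
open scoped MatrixGroups

/-- The coset space `SL(2,ℤ) ⧸ Γ₀(N)`. -/
abbrev Coset (N : ℕ) : Type := SL(2, ℤ) ⧸ Gamma0 N

/-- The `2 × 2` determinant of the first columns of `g` and `h`. -/
def colDet (g h : SL(2, ℤ)) : ℤ := g 0 0 * h 1 0 - g 1 0 * h 0 0

theorem inv_mul_lowerLeft (g h : SL(2, ℤ)) : (g⁻¹ * h) 1 0 = colDet g h := by
  rw [Matrix.SpecialLinearGroup.SL2_inv_expl g]
  simp [colDet, Matrix.mul_apply, Fin.sum_univ_two]
  ring

theorem det_entries (g : SL(2, ℤ)) : g 0 0 * g 1 1 - g 0 1 * g 1 0 = 1 := by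
  have h := g.2
  rwa [Matrix.det_fin_two] at h

/-- Two elements give the same coset iff their first columns agree in `ℙ¹(ℤ/N)`. -/
theorem mk_eq_mk_iff {N : ℕ} (g h : SL(2, ℤ)) :
    (g : Coset N) = (h : Coset N) ↔ (N : ℤ) ∣ colDet g h := by
  rw [QuotientGroup.eq, Gamma0_mem, inv_mul_lowerLeft, ZMod.intCast_zmod_eq_zero_iff_dvd]

/-- Two classes are equal iff the first columns are proportional modulo `N`. -/
theorem mk_eq_mk_iff_zmod {N : ℕ} (g h : SL(2, ℤ)) :
    (g : Coset N) = (h : Coset N) ↔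
      (g 0 0 : ZMod N) * (h 1 0 : ZMod N) = (g 1 0 : ZMod N) * (h 0 0 : ZMod N) := by
  rw [QuotientGroup.eq, Gamma0_mem, inv_mul_lowerLeft, colDet]
  push_cast
  rw [sub_eq_zero]

theorem smul_mk {N : ℕ} (h g : SL(2, ℤ)) : h • (g : Coset N) = ((h * g : SL(2, ℤ)) : Coset N) :=
  rfl

theorem smul_mk_eq_self_iff {N : ℕ} (h g : SL(2, ℤ)) :
    h • (g : Coset N) = g ↔ (N : ℤ) ∣ colDet g (h * g) := by
  rw [smul_mk, eq_comm, mk_eq_mk_iff]

/-- `-1` acts trivially. -/
theorem neg_one_smul' {N : ℕ} (x : Coset N) : (-1 : SL(2, ℤ)) • x = x := by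
  induction x using QuotientGroup.induction_on with
  | H g =>
    rw [smul_mk_eq_self_iff]
    simp [colDet]
    ring_nf
    exact dvd_zero _

theorem S_mul_S : S * S = (-1 : SL(2, ℤ)) := by decide

theorem ST_pow_three : (S * T) ^ 3 = (-1 : SL(2, ℤ)) := by decide

theorem S_smul_S_smul {N : ℕ} (x : Coset N) : S • S • x = x := by
  rw [← mul_smul, S_mul_S, neg_one_smul']

theorem ST_pow_three_smul {N : ℕ} (x : Coset N) : (S * T) ^ 3 • x = x := by
  rw [ST_pow_three, neg_one_smul']

/-- The element with first column `(1, t)`. -/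
def lowerUni (t : ℤ) : SL(2, ℤ) := ⟨!![1, 0; t, 1], by simp [Matrix.det_fin_two_of]⟩

theorem lowerUni_apply00 (t : ℤ) : lowerUni t 0 0 = 1 := rfl

theorem lowerUni_apply10 (t : ℤ) : lowerUni t 1 0 = t := rfl

/-- Fixed points of an element whose quadratic form on first columns is `a² + e a c + c²`. -/
theorem card_fixed_of_quadratic (N : ℕ) (h : SL(2, ℤ)) (e : ℤ)
    (hh : ∀ g : SL(2, ℤ), colDet g (h * g) = g 0 0 ^ 2 + e * g 0 0 * g 1 0 + g 1 0 ^ 2) :
    Nat.card {x : Coset N // h • x = x} =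
      Nat.card {t : ZMod N // t ^ 2 + (e : ZMod N) * t + 1 = 0} := by
  symm
  let f : {t : ZMod N // t ^ 2 + (e : ZMod N) * t + 1 = 0} → {x : Coset N // h • x = x} :=
    fun t => ⟨(lowerUni ((t.1.cast : ℤ)) : Coset N), by
      rw [smul_mk_eq_self_iff, hh, ← ZMod.intCast_zmod_eq_zero_iff_dvd, lowerUni_apply00,
        lowerUni_apply10]
      push_cast
      linear_combination t.2⟩
  refine Nat.card_eq_of_bijective f ⟨?_, ?_⟩
  · intro s t hst
    have h2 := congrArg Subtype.val hst
    simp only [f, mk_eq_mk_iff_zmod, lowerUni_apply00, lowerUni_apply10, Int.cast_one, one_mul,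
      mul_one, ZMod.intCast_zmod_cast] at h2
    exact Subtype.ext h2.symm
  · rintro ⟨x, hx⟩
    induction x using QuotientGroup.induction_on with
    | H g =>
      rw [smul_mk_eq_self_iff, hh, ← ZMod.intCast_zmod_eq_zero_iff_dvd] at hx
      push_cast at hx
      have hd : ((g 0 0 * g 1 1 - g 0 1 * g 1 0 : ℤ) : ZMod N) = 1 := by
        rw [det_entries]; simp
      push_cast at hd
      generalize ha : ((g 0 0 : ℤ) : ZMod N) = a at hx hd
      generalize hb : ((g 0 1 : ℤ) : ZMod N) = b at hd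
      generalize hc : ((g 1 0 : ℤ) : ZMod N) = c at hx hd
      generalize hdd : ((g 1 1 : ℤ) : ZMod N) = d at hd
      set u := a * d ^ 2 - 2 * b * c * d - a * b ^ 2 - (e : ZMod N) * c * b ^ 2 with hu
      have hau : a * u = 1 := by
        linear_combination (-b ^ 2) * hx + (a * d - b * c + 1) * hd
      have ht : (c * u) ^ 2 + (e : ZMod N) * (c * u) + 1 = 0 := by
        linear_combination u ^ 2 * hx - (a * u + 1 + (e : ZMod N) * c * u) * hau
      refine ⟨⟨c * u, ht⟩, Subtype.ext ?_⟩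
      simp only [f, mk_eq_mk_iff_zmod, lowerUni_apply00, lowerUni_apply10, Int.cast_one, one_mul,
        ZMod.intCast_zmod_cast]
      rw [hc, ha]
      linear_combination (-c) * hau

/-- `ν₂(N)` is the number of cosets fixed by `S`. -/
theorem card_fixed_S (N : ℕ) :
    Nat.card {x : Coset N // S • x = x} = ModularCurve.nuTwo N := by
  rw [card_fixed_of_quadratic N S 0 (fun g => by
    simp [colDet, coe_S, Matrix.mul_apply, Fin.sum_univ_two]; ring)]
  refine Nat.card_congr (Equiv.subtypeEquivRight fun t => ?_)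
  simp

/-- `ν₃(N)` is the number of cosets fixed by `ST`. -/
theorem card_fixed_ST (N : ℕ) :
    Nat.card {x : Coset N // (S * T) • x = x} = ModularCurve.nuThree N := by
  rw [card_fixed_of_quadratic N (S * T) 1 (fun g => by
    simp [colDet, coe_S, coe_T, Matrix.mul_apply, Fin.sum_univ_two]; ring)]
  refine Nat.card_congr (Equiv.subtypeEquivRight fun t => ?_)
  simp

end Fermat.Agent.Cosets
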