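import Mathlib
import Fermat.Prelude.Def_ModularCurve_GenusNumerics

/-!
# The Dedekind `ψ` function

## Main results

* `dedekindPsi_mul`, `dedekindPsi_prime_pow`: multiplicativity and the value at prime powers.
* `psiSum_eq_dedekindPsi`: `ψ(N) = ∑_{a ∣ N} (d / g) φ(g)` with `d = N / a`, `g = gcd(a, d)`,
  the count of Hermite forms of determinant `N`.
-/

namespace Fermat.Agent.Cosets

open Finset ModularCurve

/-- A sum over the divisors of a product of coprime numbers, as a double sum. -/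
theorem sum_divisors_mul_coprime {M : Type*} [AddCommMonoid M] {m n : ℕ} (hmn : m.Coprime n)
    (f : ℕ → M) :
    ∑ x ∈ (m * n).divisors, f x = ∑ p ∈ m.divisors ×ˢ n.divisors, f (p.1 * p.2) := by
  symm
  apply Finset.sum_nbij (fun p => p.1 * p.2)
  · intro p hp
    simp only [Finset.mem_product, Nat.mem_divisors] at hp ⊢
    exact ⟨mul_dvd_mul hp.1.1 hp.2.1, mul_ne_zero hp.1.2 hp.2.2⟩
  · intro p hp q hq h
    simp only [Finset.mem_coe, Finset.mem_product, Nat.mem_divisors] at hp hq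
    have key : ∀ a b, a ∣ m → b ∣ n → Nat.gcd (a * b) m = a := by
      intro a b ha hb
      rw [Nat.Coprime.gcd_mul_right_cancel a (hmn.coprime_dvd_right hb).symm]
      exact Nat.gcd_eq_left ha
    have key' : ∀ a b, a ∣ m → b ∣ n → Nat.gcd (a * b) n = b := by
      intro a b ha hb
      rw [Nat.Coprime.gcd_mul_left_cancel b (hmn.coprime_dvd_left ha)]
      exact Nat.gcd_eq_left hb
    simp only at h
    ext
    · rw [← key p.1 p.2 hp.1.1 hp.2.1, h, key q.1 q.2 hq.1.1 hq.2.1]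
    · rw [← key' p.1 p.2 hp.1.1 hp.2.1, h, key' q.1 q.2 hq.1.1 hq.2.1]
  · intro x hx
    simp only [Finset.mem_coe, Nat.mem_divisors] at hx
    obtain ⟨h0m, h0n⟩ := mul_ne_zero_iff.mp hx.2
    refine ⟨(Nat.gcd x m, Nat.gcd x n), ?_, ?_⟩
    · simp only [Finset.mem_coe, Finset.mem_product, Nat.mem_divisors]
      exact ⟨⟨Nat.gcd_dvd_right _ _, h0m⟩, Nat.gcd_dvd_right _ _, h0n⟩
    · simp only
      rw [← Nat.Coprime.gcd_mul x hmn, Nat.gcd_eq_left hx.1]
  · intro p _
    rfl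

theorem dedekindPsi_eq_sum_ite (N : ℕ) :
    dedekindPsi N = ∑ d ∈ N.divisors, if Squarefree d then N / d else 0 := by
  rw [dedekindPsi, Finset.sum_filter]

/-- `ψ` is multiplicative. -/
theorem dedekindPsi_mul {m n : ℕ} (hmn : m.Coprime n) :
    dedekindPsi (m * n) = dedekindPsi m * dedekindPsi n := by
  rw [dedekindPsi_eq_sum_ite, dedekindPsi_eq_sum_ite, dedekindPsi_eq_sum_ite,
    sum_divisors_mul_coprime hmn, Finset.sum_mul_sum, ← Finset.sum_product']
  refine Finset.sum_congr rfl fun p hp => ?_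
  simp only [Finset.mem_product, Nat.mem_divisors] at hp
  have hc : p.1.Coprime p.2 :=
    (hmn.coprime_dvd_left hp.1.1).coprime_dvd_right hp.2.1
  rw [ite_zero_mul_ite_zero]
  simp only [Nat.squarefree_mul hc, Nat.div_mul_div_comm hp.1.1 hp.2.1]

/-- The value of `ψ` at a prime power. -/
theorem dedekindPsi_prime_pow {p : ℕ} (hp : p.Prime) (k : ℕ) :
    dedekindPsi (p ^ (k + 1)) = p ^ (k + 1) + p ^ k := by
  rw [dedekindPsi_eq_sum_ite, Nat.sum_divisors_prime_pow hp]
  rw [Finset.sum_range_succ', Finset.sum_range_succ']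
  have h0 : ∀ i, ¬ Squarefree (p ^ (i + 1 + 1)) := by
    intro i h
    rw [Nat.squarefree_pow_iff hp.ne_one (by omega)] at h
    omega
  simp only [h0, if_false, Finset.sum_const_zero, zero_add, pow_zero, pow_one, squarefree_one,
    if_true, Nat.div_one, hp.squarefree]
  rw [pow_succ, Nat.mul_div_cancel _ hp.pos]
  ring

theorem dedekindPsi_pos {N : ℕ} (hN : N ≠ 0) : 0 < dedekindPsi N := by
  refine Finset.sum_pos' (fun _ _ => Nat.zero_le _) ⟨1, ?_, ?_⟩
  · simp [hN]
  · simpa using Nat.pos_of_ne_zero hN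

/-- The number of `b < d` prime to `gcd a d`. -/
def psiTerm (a d : ℕ) : ℕ := d / Nat.gcd a d * Nat.totient (Nat.gcd a d)

/-- `∑_{a ∣ N} (d/g) φ(g)`. -/
def psiSum (N : ℕ) : ℕ := ∑ a ∈ N.divisors, psiTerm a (N / a)

theorem psiSum_mul {m n : ℕ} (hmn : m.Coprime n) : psiSum (m * n) = psiSum m * psiSum n := by
  unfold psiSum
  rw [sum_divisors_mul_coprime hmn, Finset.sum_mul_sum, ← Finset.sum_product']
  refine Finset.sum_congr rfl fun p hp => ?_
  simp only [Finset.mem_product, Nat.mem_divisors] at hp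
  set a := p.1
  set a' := p.2
  set d := m / a with hd
  set d' := n / a' with hd'
  have hda : d ∣ m := Nat.div_dvd_of_dvd hp.1.1
  have hda' : d' ∣ n := Nat.div_dvd_of_dvd hp.2.1
  have hquot : m * n / (a * a') = d * d' := (Nat.div_mul_div_comm hp.1.1 hp.2.1).symm
  have hgm : Nat.gcd a d ∣ m := (Nat.gcd_dvd_left _ _).trans hp.1.1
  have hgn : Nat.gcd a' d' ∣ n := (Nat.gcd_dvd_left _ _).trans hp.2.1
  have hg : Nat.gcd (a * a') (d * d') = Nat.gcd a d * Nat.gcd a' d' := by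
    rw [Nat.Coprime.gcd_mul _ ((hmn.coprime_dvd_left hda).coprime_dvd_right hda'),
      Nat.Coprime.gcd_mul_right_cancel a ((hmn.coprime_dvd_left hda).coprime_dvd_right hp.2.1).symm,
      Nat.Coprime.gcd_mul_left_cancel a' ((hmn.coprime_dvd_left hp.1.1).coprime_dvd_right hda')]
  simp only [psiTerm, hquot, hg]
  rw [Nat.totient_mul ((hmn.coprime_dvd_left hgm).coprime_dvd_right hgn),
    ← Nat.div_mul_div_comm (Nat.gcd_dvd_right _ _) (Nat.gcd_dvd_right _ _)]
  ring

theorem psiTerm_prime_pow_le {p : ℕ} (hp : p.Prime) {i j : ℕ} (h : j ≤ i) :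
    psiTerm (p ^ i) (p ^ j) = Nat.totient (p ^ j) := by
  have hg : Nat.gcd (p ^ i) (p ^ j) = p ^ j := Nat.gcd_eq_right (pow_dvd_pow p h)
  rw [psiTerm, hg, Nat.div_self (pow_pos hp.pos j), one_mul]

theorem psiTerm_prime_pow_ge {p : ℕ} (hp : p.Prime) {i j : ℕ} (hi : 0 < i) (h : i ≤ j) :
    psiTerm (p ^ i) (p ^ j) = Nat.totient (p ^ j) := by
  have hg : Nat.gcd (p ^ i) (p ^ j) = p ^ i := Nat.gcd_eq_left (pow_dvd_pow p h)
  obtain ⟨i, rfl⟩ : ∃ i', i = i' + 1 := ⟨i - 1, by omega⟩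
  obtain ⟨r, rfl⟩ := Nat.exists_eq_add_of_le h
  rw [psiTerm, hg, Nat.totient_prime_pow_succ hp, Nat.pow_div (by omega) hp.pos,
    show i + 1 + r = i + r + 1 by ring, Nat.totient_prime_pow_succ hp,
    show i + r + 1 - (i + 1) = r by omega, pow_add p i r]
  ring

theorem psiSum_prime_pow {p : ℕ} (hp : p.Prime) (k : ℕ) :
    psiSum (p ^ (k + 1)) = p ^ (k + 1) + p ^ k := by
  rw [psiSum, Nat.sum_divisors_prime_pow hp, Finset.sum_range_succ']
  have hterm : ∀ i ∈ Finset.range (k + 1),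
      psiTerm (p ^ (i + 1)) (p ^ (k + 1) / p ^ (i + 1)) = Nat.totient (p ^ (k - i)) := by
    intro i hi
    rw [Finset.mem_range] at hi
    rw [Nat.pow_div (by omega) hp.pos, show k + 1 - (i + 1) = k - i by omega]
    rcases le_total (k - i) (i + 1) with h | h
    · exact psiTerm_prime_pow_le hp h
    · exact psiTerm_prime_pow_ge hp (Nat.succ_pos i) h
  rw [Finset.sum_congr rfl hterm]
  have hflip : ∑ i ∈ Finset.range (k + 1), Nat.totient (p ^ (k - i)) = p ^ k := by
    have := Finset.sum_range_reflect (fun i => Nat.totient (p ^ i)) (k + 1)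
    simp only [Nat.add_sub_cancel] at this
    rw [this, ← Nat.sum_divisors_prime_pow (f := Nat.totient) hp, Nat.sum_totient]
  rw [hflip]
  simp [psiTerm, add_comm]

/-- `ψ(N) = ∑_{a ∣ N} (d / g) φ(g)` with `d = N / a`, `g = gcd(a, d)`. -/
theorem psiSum_eq_dedekindPsi (N : ℕ) : psiSum N = dedekindPsi N := by
  induction N using Nat.recOnPosPrimePosCoprime with
  | prime_pow p n hp hn =>
    obtain ⟨k, rfl⟩ : ∃ k, n = k + 1 := ⟨n - 1, by omega⟩
    rw [psiSum_prime_pow hp, dedekindPsi_prime_pow hp]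
  | zero => simp [psiSum, dedekindPsi]
  | one => simp [psiSum, psiTerm]
  | coprime a b _ _ hab iha ihb => rw [psiSum_mul hab, dedekindPsi_mul hab, iha, ihb]

end Fermat.Agent.Cosets
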