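import Mathlib
import Fermat.Agent.Cosets.Basic

/-!
# Hermite forms and cosets of `Γ₀(N)`

A Hermite form is `(a b; 0 d)` with `a d = N`, `0 ≤ b < d` and `gcd(a, b, d) = 1`.  The class of
`g` corresponds to the unique form `M` with `diag(N, 1) g⁻¹ ∈ SL(2, ℤ) M`.

## Main results

* `hermiteEquiv`: `SL(2, ℤ) ⧸ Γ₀(N)` is in bijection with the Hermite forms.
* `toHermite_T_zpow_smul`, `T_zpow_smul_eq_self_iff`: the action of `T` on Hermite forms and the
  width of a cusp.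
-/

namespace Fermat.Agent.Cosets

open CongruenceSubgroup ModularGroup
open scoped MatrixGroups

/-- An upper triangular Hermite form of determinant `N`, primitive. -/
@[ext]
structure Hermite (N : ℕ) : Type where
  /-- upper left entry -/
  a : ℕ
  /-- upper right entry -/
  b : ℕ
  /-- lower right entry -/
  d : ℕ
  mul_eq : a * d = N
  b_lt : b < d
  gcd_eq : Nat.gcd (Nat.gcd a d) b = 1

namespace Hermite

variable {N : ℕ}

theorem d_pos (h : Hermite N) : 0 < h.d := (Nat.zero_le _).trans_lt h.b_lt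

theorem a_pos [NeZero N] (h : Hermite N) : 0 < h.a := by
  refine Nat.pos_of_ne_zero fun h0 => NeZero.ne N ?_
  rw [← h.mul_eq, h0, zero_mul]

theorem a_dvd (h : Hermite N) : h.a ∣ N := ⟨h.d, h.mul_eq.symm⟩

theorem d_eq [NeZero N] (h : Hermite N) : h.d = N / h.a :=
  (Nat.div_eq_of_eq_mul_left h.a_pos (by rw [mul_comm, h.mul_eq])).symm

theorem mul_eq_int (h : Hermite N) : (h.a : ℤ) * h.d = N := by exact_mod_cast h.mul_eq

/-- The integer matrix of a Hermite form. -/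
def mat (h : Hermite N) : Matrix (Fin 2) (Fin 2) ℤ := !![(h.a : ℤ), (h.b : ℤ); 0, (h.d : ℤ)]

/-- `gcd(a, d)`. -/
def g (h : Hermite N) : ℕ := Nat.gcd h.a h.d

theorem coprime_g_b (h : Hermite N) : Nat.Coprime h.b h.g := by
  rw [Nat.coprime_comm]; exact h.gcd_eq

theorem g_dvd_d (h : Hermite N) : h.g ∣ h.d := Nat.gcd_dvd_right _ _

/-- The width of the cusp attached to the form. -/
def width (h : Hermite N) : ℕ := h.d / h.g

theorem g_pos (h : Hermite N) : 0 < h.g := Nat.gcd_pos_of_pos_right _ h.d_pos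

theorem width_pos (h : Hermite N) : 0 < h.width :=
  Nat.div_pos (Nat.le_of_dvd h.d_pos h.g_dvd_d) h.g_pos

/-- The form obtained by moving `b` to `(b - n a) mod d`. -/
def shift (h : Hermite N) (n : ℤ) : Hermite N where
  a := h.a
  b := (((h.b : ℤ) - n * h.a) % h.d).toNat
  d := h.d
  mul_eq := h.mul_eq
  b_lt := by
    have hd : (0 : ℤ) < h.d := by exact_mod_cast h.d_pos
    have := Int.emod_lt_of_pos ((h.b : ℤ) - n * h.a) hd
    have := Int.emod_nonneg ((h.b : ℤ) - n * h.a) hd.ne'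
    omega
  gcd_eq := by
    have hd : (h.d : ℤ) ≠ 0 := by exact_mod_cast h.d_pos.ne'
    have hnn := Int.emod_nonneg ((h.b : ℤ) - n * h.a) hd
    set m := Nat.gcd (Nat.gcd h.a h.d) (((h.b : ℤ) - n * h.a) % h.d).toNat with hm
    have hma : (m : ℤ) ∣ h.a :=
      Int.natCast_dvd_natCast.mpr ((Nat.gcd_dvd_left _ _).trans (Nat.gcd_dvd_left _ _))
    have hmd : (m : ℤ) ∣ h.d :=
      Int.natCast_dvd_natCast.mpr ((Nat.gcd_dvd_left _ _).trans (Nat.gcd_dvd_right _ _))
    have hmr : (m : ℤ) ∣ ((h.b : ℤ) - n * h.a) % h.d := by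
      rw [← Int.toNat_of_nonneg hnn]
      exact Int.natCast_dvd_natCast.mpr (Nat.gcd_dvd_right _ _)
    have hmb : (m : ℤ) ∣ (h.b : ℤ) := by
      rw [show (h.b : ℤ) = ((h.b : ℤ) - n * h.a) % h.d +
        h.d * (((h.b : ℤ) - n * h.a) / h.d) + n * h.a by rw [Int.emod_add_mul_ediv]; ring]
      exact dvd_add (dvd_add hmr (dvd_mul_of_dvd_left hmd _)) (dvd_mul_of_dvd_right hma _)
    rw [← Nat.dvd_one, ← h.gcd_eq]
    exact Nat.dvd_gcd (Nat.dvd_gcd (Int.natCast_dvd_natCast.mp hma)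
      (Int.natCast_dvd_natCast.mp hmd))
      (Int.natCast_dvd_natCast.mp hmb)

theorem shift_a (h : Hermite N) (n : ℤ) : (h.shift n).a = h.a := rfl

theorem shift_d (h : Hermite N) (n : ℤ) : (h.shift n).d = h.d := rfl

theorem shift_b_cast (h : Hermite N) (n : ℤ) :
    ((h.shift n).b : ℤ) = ((h.b : ℤ) - n * h.a) % h.d :=
  Int.toNat_of_nonneg (Int.emod_nonneg _ (by exact_mod_cast h.d_pos.ne'))

theorem shift_eq_iff (h h' : Hermite N) (n : ℤ) :
    h.shift n = h' ↔ h.a = h'.a ∧ h.d = h'.d ∧ (h.d : ℤ) ∣ (h'.b : ℤ) - h.b + n * h.a := by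
  constructor
  · rintro rfl
    refine ⟨rfl, rfl, ?_⟩
    rw [shift_b_cast, Int.emod_def]
    exact ⟨-(((h.b : ℤ) - n * h.a) / h.d), by ring⟩
  · rintro ⟨ha, hd, hb⟩
    refine Hermite.ext ha ?_ hd
    have hlt : (h'.b : ℤ) < h.d := by rw [hd]; exact_mod_cast h'.b_lt
    have h1 : ((h'.b : ℤ)) % h.d = ((h.b : ℤ) - n * h.a) % h.d := by
      rw [Int.emod_eq_emod_iff_emod_sub_eq_zero]
      apply Int.emod_eq_zero_of_dvd
      rw [show (h'.b : ℤ) - ((h.b : ℤ) - n * h.a) = (h'.b : ℤ) - h.b + n * h.a by ring]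
      exact hb
    rw [Int.emod_eq_of_lt (Int.natCast_nonneg _) hlt] at h1
    have := shift_b_cast h n
    omega

theorem shift_eq_self_iff (h : Hermite N) (n : ℤ) :
    h.shift n = h ↔ (h.width : ℤ) ∣ n := by
  rw [shift_eq_iff]
  simp only [true_and, sub_self, zero_add]
  obtain ⟨a', ha'⟩ : h.g ∣ h.a := Nat.gcd_dvd_left h.a h.d
  obtain ⟨d', hd'⟩ := h.g_dvd_d
  have hw : h.width = d' := by
    rw [width, hd', Nat.mul_div_cancel_left _ h.g_pos]
  have hcop : IsCoprime (d' : ℤ) (a' : ℤ) := by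
    rw [Nat.isCoprime_iff_coprime, Nat.coprime_comm]
    have := Nat.coprime_div_gcd_div_gcd (m := h.a) (n := h.d) h.g_pos
    change Nat.Coprime (h.a / h.g) (h.d / h.g) at this
    rwa [ha', hd', Nat.mul_div_cancel_left _ h.g_pos, Nat.mul_div_cancel_left _ h.g_pos] at this
  have hg0 : (h.g : ℤ) ≠ 0 := by exact_mod_cast h.g_pos.ne'
  rw [hw, ha', hd']
  push_cast
  rw [show n * ((h.g : ℤ) * a') = h.g * (n * a') by ring, mul_dvd_mul_iff_left hg0]
  exact ⟨hcop.dvd_of_dvd_mul_right, fun hn => dvd_mul_of_dvd_left hn _⟩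

end Hermite

/-- `diag(N, 1)`. -/
def scaleMat (N : ℕ) : Matrix (Fin 2) (Fin 2) ℤ := !![(N : ℤ), 0; 0, 1]

/-- `diag(N,1) * g = γ * h.mat` for some `γ : SL(2,ℤ)`. -/
def HermiteRel {N : ℕ} (g : SL(2, ℤ)) (h : Hermite N) : Prop :=
  ∃ γ : SL(2, ℤ), scaleMat N * (g : Matrix (Fin 2) (Fin 2) ℤ) =
      (γ : Matrix (Fin 2) (Fin 2) ℤ) * h.mat

theorem exists_hermiteRel {N : ℕ} [NeZero N] (g : SL(2, ℤ)) :
    ∃ h : Hermite N, HermiteRel g h := by
  obtain ⟨x, y, c, e, hg⟩ : ∃ x y c e : ℤ, (g : Matrix (Fin 2) (Fin 2) ℤ) = !![x, y; c, e] :=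
    ⟨_, _, _, _, Matrix.eta_fin_two _⟩
  have hdet : x * e - y * c = 1 := by
    have := g.2
    rwa [hg, Matrix.det_fin_two_of] at this
  set a := Int.gcd (N : ℤ) c with ha
  have hapos : 0 < a := Int.gcd_pos_of_ne_zero_left _ (by exact_mod_cast NeZero.ne N)
  obtain ⟨d, hd⟩ : a ∣ N := by exact_mod_cast Int.gcd_dvd_left (N : ℤ) c
  obtain ⟨c1, hc1⟩ : (a : ℤ) ∣ c := Int.gcd_dvd_right (N : ℤ) c
  have hdpos : 0 < d := Nat.pos_of_ne_zero fun h0 => NeZero.ne N (by rw [hd, h0, mul_zero])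
  have hdZ : (N : ℤ) = a * d := by exact_mod_cast hd
  -- `d x` and `c1` are coprime
  have hdc : IsCoprime (d : ℤ) c1 := by
    obtain ⟨u, v, huv⟩ : ∃ u v : ℤ, (a : ℤ) = (N : ℤ) * u + c * v :=
      ⟨_, _, Int.gcd_eq_gcd_ab (N : ℤ) c⟩
    refine ⟨u, v, ?_⟩
    apply mul_left_cancel₀ (show (a : ℤ) ≠ 0 by exact_mod_cast hapos.ne')
    rw [hdZ, hc1] at huv
    linear_combination -huv
  have hxc : IsCoprime x c1 := ⟨e, -(y * a), by rw [hc1] at hdet; linear_combination hdet⟩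
  obtain ⟨p, q, hpq⟩ := IsCoprime.mul_left hdc hxc
  set B : ℤ := p * N * y + q * e with hB
  have hnn := Int.emod_nonneg B (show (d : ℤ) ≠ 0 by exact_mod_cast hdpos.ne')
  have hlt := Int.emod_lt_of_pos B (show (0 : ℤ) < d by exact_mod_cast hdpos)
  set b := (B % d).toNat with hbdef
  set k := B / d with hk
  have hbk : (b : ℤ) + d * k = B := by
    rw [hbdef, Int.toNat_of_nonneg hnn, hk, Int.emod_add_mul_ediv]
  have hcol2 : (c1 * b + (c1 * k + p) * d) = e := by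
    linear_combination c1 * hbk + e * hpq + c1 * hB + p * c1 * y * hdZ - p * (d : ℤ) * hdet
      - p * (d : ℤ) * y * hc1
  have hprim : Nat.gcd (Nat.gcd a d) b = 1 := by
    rw [← Nat.dvd_one]
    set m := Nat.gcd (Nat.gcd a d) b
    have hma : (m : ℤ) ∣ a :=
      Int.natCast_dvd_natCast.mpr ((Nat.gcd_dvd_left _ _).trans (Nat.gcd_dvd_left _ _))
    have hmd : (m : ℤ) ∣ d :=
      Int.natCast_dvd_natCast.mpr ((Nat.gcd_dvd_left _ _).trans (Nat.gcd_dvd_right _ _))
    have hmb : (m : ℤ) ∣ b := Int.natCast_dvd_natCast.mpr (Nat.gcd_dvd_right _ _)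
    have hmc : (m : ℤ) ∣ c := hc1 ▸ dvd_mul_of_dvd_left hma _
    have hme : (m : ℤ) ∣ e :=
      hcol2 ▸ dvd_add (dvd_mul_of_dvd_right hmb _) (dvd_mul_of_dvd_right hmd _)
    rw [← Int.natCast_dvd_natCast, Nat.cast_one, ← hdet]
    exact dvd_sub (dvd_mul_of_dvd_right hme _) (dvd_mul_of_dvd_right hmc _)
  refine ⟨⟨a, b, d, hd.symm, by omega, hprim⟩,
    ⟨!![(d : ℤ) * x, d * x * k - q; c1, c1 * k + p], ?_⟩, ?_⟩
  · rw [Matrix.det_fin_two_of]
    linear_combination hpq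
  · change scaleMat N * (g : Matrix (Fin 2) (Fin 2) ℤ) =
      !![(d : ℤ) * x, d * x * k - q; c1, c1 * k + p] * _
    rw [hg, Hermite.mat, scaleMat]
    simp only [Matrix.mul_fin_two, zero_mul, add_zero, one_mul, mul_zero, zero_add]
    congrm !![?_, ?_; ?_, ?_]
    · linear_combination x * hdZ
    · linear_combination (-(d : ℤ) * x) * hbk - (d : ℤ) * x * hB - (N : ℤ) * y * hpq
        + q * c1 * y * hdZ - q * (d : ℤ) * hdet - q * (d : ℤ) * y * hc1
    · linear_combination hc1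
    · exact hcol2.symm

theorem hermiteRel_unique {N : ℕ} [NeZero N] {g : SL(2, ℤ)} {h h' : Hermite N}
    (hr : HermiteRel g h) (hr' : HermiteRel g h') : h = h' := by
  obtain ⟨γ, hγ⟩ := hr
  obtain ⟨γ', hγ'⟩ := hr'
  obtain ⟨δ, hδ⟩ : ∃ δ : SL(2, ℤ), (δ : Matrix (Fin 2) (Fin 2) ℤ) * h.mat = h'.mat := by
    refine ⟨γ'⁻¹ * γ, ?_⟩
    rw [Matrix.SpecialLinearGroup.coe_mul, Matrix.mul_assoc, ← hγ, hγ', ← Matrix.mul_assoc,
      ← Matrix.SpecialLinearGroup.coe_mul, inv_mul_cancel, Matrix.SpecialLinearGroup.coe_one,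
      Matrix.one_mul]
  have e00 := congrFun (congrFun hδ 0) 0
  have e01 := congrFun (congrFun hδ 0) 1
  have e10 := congrFun (congrFun hδ 1) 0
  have e11 := congrFun (congrFun hδ 1) 1
  simp [Hermite.mat, Matrix.mul_apply, Fin.sum_univ_two] at e00 e01 e10 e11
  have ha : (0 : ℤ) < h.a := by exact_mod_cast h.a_pos
  have ha' : (0 : ℤ) < h'.a := by exact_mod_cast h'.a_pos
  have h10 : δ 1 0 = 0 := e10.resolve_right h.a_pos.ne'
  have hdet := det_entries δ
  rw [h10, mul_zero, sub_zero] at hdet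
  have h00 : δ 0 0 = 1 := by
    rcases Int.eq_one_or_neg_one_of_mul_eq_one hdet with h1 | h1
    · exact h1
    · rw [h1] at e00; omega
  have h11 : δ 1 1 = 1 := by rwa [h00, one_mul] at hdet
  rw [h00, one_mul] at e00 e01
  rw [h10, h11, zero_mul, zero_add, one_mul] at e11
  have hdd : h.d = h'.d := by exact_mod_cast e11
  refine Hermite.ext (by exact_mod_cast e00) ?_ hdd
  have h1 := h.b_lt
  have h2 := h'.b_lt
  have hz : δ 0 1 = 0 := by
    by_contra hne
    rcases lt_or_gt_of_ne hne with hlt | hlt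
    · have : δ 0 1 * (h.d : ℤ) ≤ -(h.d : ℤ) := by nlinarith
      omega
    · have : (h.d : ℤ) ≤ δ 0 1 * (h.d : ℤ) := by nlinarith
      omega
  rw [hz] at e01
  omega

theorem hermiteRel_mul_of_mem {N : ℕ} {k : SL(2, ℤ)} (hk : k ∈ Gamma0 N) {g : SL(2, ℤ)}
    {h : Hermite N} (hr : HermiteRel g h) : HermiteRel (k * g) h := by
  obtain ⟨γ, hγ⟩ := hr
  rw [Gamma0_mem, ZMod.intCast_zmod_eq_zero_iff_dvd] at hk
  obtain ⟨r, hr'⟩ := hk
  obtain ⟨δ, hδ⟩ : ∃ δ : SL(2, ℤ),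
      scaleMat N * (k : Matrix (Fin 2) (Fin 2) ℤ) =
          (δ : Matrix (Fin 2) (Fin 2) ℤ) * scaleMat N := by
    refine ⟨⟨!![k 0 0, N * k 0 1; r, k 1 1], ?_⟩, ?_⟩
    · rw [Matrix.det_fin_two_of]
      linear_combination det_entries k + k 0 1 * hr'
    · ext i j
      fin_cases i <;> fin_cases j <;>
        simp [scaleMat, Matrix.mul_apply, Fin.sum_univ_two, hr'] <;> ring
  refine ⟨δ * γ, ?_⟩
  rw [Matrix.SpecialLinearGroup.coe_mul, ← Matrix.mul_assoc, hδ, Matrix.mul_assoc, hγ,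
    ← Matrix.mul_assoc, Matrix.SpecialLinearGroup.coe_mul]

theorem mem_of_hermiteRel {N : ℕ} {g g' : SL(2, ℤ)} {h : Hermite N}
    (hr : HermiteRel g h) (hr' : HermiteRel g' h) : g * g'⁻¹ ∈ Gamma0 N := by
  obtain ⟨γ, hγ⟩ := hr
  obtain ⟨γ', hγ'⟩ := hr'
  have key : scaleMat N * ((g * g'⁻¹ : SL(2, ℤ)) : Matrix (Fin 2) (Fin 2) ℤ) =
      ((γ * γ'⁻¹ : SL(2, ℤ)) : Matrix (Fin 2) (Fin 2) ℤ) * scaleMat N := by
    have h1 : h.mat = ((γ'⁻¹ : SL(2, ℤ)) : Matrix (Fin 2) (Fin 2) ℤ) * scaleMat N *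
        (g' : Matrix (Fin 2) (Fin 2) ℤ) := by
      rw [Matrix.mul_assoc, hγ', ← Matrix.mul_assoc, ← Matrix.SpecialLinearGroup.coe_mul,
        inv_mul_cancel, Matrix.SpecialLinearGroup.coe_one, Matrix.one_mul]
    rw [Matrix.SpecialLinearGroup.coe_mul g g'⁻¹, ← Matrix.mul_assoc, hγ, h1,
      Matrix.SpecialLinearGroup.coe_mul γ γ'⁻¹]
    simp only [Matrix.mul_assoc]
    rw [← Matrix.SpecialLinearGroup.coe_mul g' g'⁻¹, mul_inv_cancel,
      Matrix.SpecialLinearGroup.coe_one, Matrix.mul_one]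
  have := congrFun (congrFun key 1) 0
  simp only [scaleMat, Matrix.mul_apply, Fin.sum_univ_two] at this
  simp only [Matrix.of_apply, Matrix.cons_val', Matrix.cons_val_zero, Matrix.cons_val_one,
    Matrix.cons_val_fin_one, zero_mul, zero_add, one_mul, mul_zero, add_zero] at this
  rw [Gamma0_mem, ZMod.intCast_zmod_eq_zero_iff_dvd, this]
  exact dvd_mul_left _ _

theorem exists_rep_hermiteRel {N : ℕ} [NeZero N] (h : Hermite N) :
    ∃ g : SL(2, ℤ), HermiteRel g h := by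
  -- find a lift `b + k d` of `b` prime to `a`
  have hex : ∃ k : ℤ, IsCoprime (h.a : ℤ) (h.b + k * h.d) := by
    obtain ⟨k, hk⟩ : ∃ k : ℕ, Nat.Coprime (h.b + k * h.d) h.a := by
      -- the product of the primes of `a` not dividing `b`
      refine ⟨∏ p ∈ h.a.primeFactors.filter (fun p => ¬ p ∣ h.b), p, ?_⟩
      refine Nat.coprime_of_dvd fun p hp hpb hpa => ?_
      set K := ∏ q ∈ h.a.primeFactors.filter (fun p => ¬ p ∣ h.b), q
      by_cases hb : p ∣ h.b
      · have h1 : p ∣ K * h.d := (Nat.dvd_add_right hb).mp hpb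
        rcases hp.dvd_mul.mp h1 with h2 | h2
        · obtain ⟨q, hq, hpq⟩ := (Nat.prime_iff.mp hp).exists_mem_finset_dvd h2
          rw [Finset.mem_filter, Nat.mem_primeFactors] at hq
          rw [(Nat.prime_dvd_prime_iff_eq hp hq.1.1).mp hpq] at hb
          exact hq.2 hb
        · have := Nat.dvd_gcd (Nat.dvd_gcd hpa h2) hb
          rw [h.gcd_eq, Nat.dvd_one] at this
          exact hp.ne_one this
      · have hK : p ∣ K := Finset.dvd_prod_of_mem (fun p => p) (by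
          rw [Finset.mem_filter, Nat.mem_primeFactors]
          exact ⟨⟨hp, hpa, h.a_pos.ne'⟩, hb⟩)
        exact hb ((Nat.dvd_add_left (dvd_mul_of_dvd_left hK _)).mp hpb)
    exact ⟨k, by exact_mod_cast Nat.isCoprime_iff_coprime.mpr hk.symm⟩
  obtain ⟨k, u, v, huv⟩ := hex
  refine ⟨⟨!![v, -u; (h.a : ℤ), h.b + k * h.d], ?_⟩, ?_⟩
  · rw [Matrix.det_fin_two_of]
    linear_combination huv
  · refine ⟨⟨!![v * h.d, -(u * h.a + v * h.b); 1, k], ?_⟩, ?_⟩
    · rw [Matrix.det_fin_two_of]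
      linear_combination huv
    · change scaleMat N * !![v, -u; (h.a : ℤ), h.b + k * h.d] =
        !![v * h.d, -(u * h.a + v * h.b); 1, k] * h.mat
      rw [scaleMat, Hermite.mat]
      simp only [Matrix.mul_fin_two, zero_mul, add_zero, one_mul, mul_zero, zero_add]
      congrm !![?_, ?_; ?_, ?_]
      · linear_combination (-v) * h.mul_eq_int
      · linear_combination u * h.mul_eq_int
      · rfl
      · ring

/-- The Hermite form of a coset. -/
noncomputable def toHermite {N : ℕ} [NeZero N] : Coset N → Hermite N :=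
  Quotient.lift (fun g => (exists_hermiteRel g⁻¹).choose) (by
    intro g g' hgg
    have hmem : g⁻¹ * g' ∈ Gamma0 N := QuotientGroup.leftRel_apply.mp hgg
    refine hermiteRel_unique (exists_hermiteRel g⁻¹).choose_spec ?_
    have := hermiteRel_mul_of_mem hmem (exists_hermiteRel (N := N) g'⁻¹).choose_spec
    rwa [mul_assoc, mul_inv_cancel, mul_one] at this)

theorem toHermite_spec {N : ℕ} [NeZero N] (g : SL(2, ℤ)) :
    HermiteRel g⁻¹ (toHermite (g : Coset N)) :=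
  (exists_hermiteRel g⁻¹).choose_spec

theorem toHermite_eq_of_rel {N : ℕ} [NeZero N] {g : SL(2, ℤ)} {h : Hermite N}
    (hr : HermiteRel g⁻¹ h) : toHermite (g : Coset N) = h :=
  hermiteRel_unique (toHermite_spec g) hr

theorem toHermite_bijective {N : ℕ} [NeZero N] :
    Function.Bijective (toHermite : Coset N → Hermite N) := by
  refine ⟨fun x y hxy => ?_, fun h => ?_⟩
  · induction x using QuotientGroup.induction_on with
    | H g =>
      induction y using QuotientGroup.induction_on with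
      | H g' =>
        rw [QuotientGroup.eq]
        have h2 := toHermite_spec (N := N) g'
        rw [← hxy] at h2
        simpa using mem_of_hermiteRel (toHermite_spec g) h2
  · obtain ⟨g, hg⟩ := exists_rep_hermiteRel h
    exact ⟨((g⁻¹ : SL(2, ℤ)) : Coset N), toHermite_eq_of_rel (by rwa [inv_inv])⟩

/-- `SL(2,ℤ) ⧸ Γ₀(N) ≃` Hermite forms. -/
noncomputable def hermiteEquiv (N : ℕ) [NeZero N] : Coset N ≃ Hermite N :=
  Equiv.ofBijective _ toHermite_bijective

/-- `T ^ n` shifts `b` by `- n a`. -/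
theorem toHermite_T_zpow_smul {N : ℕ} [NeZero N] (n : ℤ) (x : Coset N) :
    toHermite (T ^ n • x) = (toHermite x).shift n := by
  induction x using QuotientGroup.induction_on with
  | H g =>
    rw [smul_mk]
    apply toHermite_eq_of_rel
    obtain ⟨γ, hγ⟩ := toHermite_spec (N := N) g
    set h := toHermite (g : Coset N)
    refine ⟨γ * T ^ (((h.b : ℤ) - n * h.a) / h.d), ?_⟩
    rw [mul_inv_rev, ← zpow_neg, Matrix.SpecialLinearGroup.coe_mul, ← Matrix.mul_assoc, hγ,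
      Matrix.SpecialLinearGroup.coe_mul, Matrix.mul_assoc, Matrix.mul_assoc, coe_T_zpow, coe_T_zpow]
    congr 1
    simp only [Hermite.mat, Hermite.shift_a, Hermite.shift_d, Hermite.shift_b_cast,
      Matrix.mul_fin_two]
    congrm !![?_, ?_; ?_, ?_]
    · ring
    · rw [Int.emod_def]; ring
    · ring
    · ring

theorem T_zpow_smul_eq_self_iff {N : ℕ} [NeZero N] (n : ℤ) (x : Coset N) :
    T ^ n • x = x ↔ ((toHermite x).width : ℤ) ∣ n := by
  rw [← toHermite_bijective.1.eq_iff, toHermite_T_zpow_smul, Hermite.shift_eq_self_iff]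

end Fermat.Agent.Cosets
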