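import Mathlib
import Fermat.Agent.Cosets.Psi
import Fermat.Agent.Cosets.Basic
import Fermat.Agent.Cosets.Hermite

/-!
# Counting cosets and orbits

## Main results

* `card_coset`: `[SL(2, ℤ) : Γ₀(N)] = ψ(N)`.
* `two_mul_card_S_orbits`, `three_mul_card_ST_orbits`, `card_T_orbits`: the numbers of orbits of
  `S`, `S T` and `T` on the cosets; the last is the number of cusps.
* `cuspWidth`, `orbitWidth`: the width of a cusp.
* `euler_char_eq`: the Euler characteristic of the coset surface is `2 - 2 g`.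
-/

namespace Fermat.Agent.Cosets

open CongruenceSubgroup ModularGroup Finset
open scoped MatrixGroups

theorem card_range_coprime_gcd {g : ℕ} (m : ℕ) :
    #{b ∈ range (g * m) | g.Coprime b} = m * Nat.totient g := by
  induction m with
  | zero => simp
  | succ m ih =>
    rw [Finset.range_eq_Ico, ← Finset.Ico_union_Ico_eq_Ico (Nat.zero_le (g * m))
      (Nat.mul_le_mul_left g (Nat.le_succ m)), Finset.filter_union, Finset.card_union_of_disjoint
      (Finset.disjoint_filter_filter (Finset.Ico_disjoint_Ico_consecutive _ _ _)),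
      ← Finset.range_eq_Ico, ih, Nat.mul_succ, Nat.filter_coprime_Ico_eq_totient]
    ring

/-- Hermite forms as a sigma type. -/
def hermiteSigmaEquiv (N : ℕ) [NeZero N] :
    Hermite N ≃ Σ a : {a // a ∈ N.divisors},
      {b // b ∈ {b ∈ range (N / a.1) | (Nat.gcd a.1 (N / a.1)).Coprime b}} where
  toFun h := ⟨⟨h.a, Nat.mem_divisors.mpr ⟨h.a_dvd, NeZero.ne N⟩⟩, ⟨h.b, by
    rw [Finset.mem_filter, Finset.mem_range, ← h.d_eq]
    exact ⟨h.b_lt, h.gcd_eq⟩⟩⟩
  invFun p := ⟨p.1.1, p.2.1, N / p.1.1, Nat.mul_div_cancel' (Nat.mem_divisors.mp p.1.2).1,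
    Finset.mem_range.mp (Finset.mem_filter.mp p.2.2).1, (Finset.mem_filter.mp p.2.2).2⟩
  left_inv h := Hermite.ext rfl rfl h.d_eq.symm
  right_inv p := rfl

/-- There are `ψ(N)` Hermite forms of determinant `N`. -/
theorem card_hermite (N : ℕ) [NeZero N] : Nat.card (Hermite N) = ModularCurve.dedekindPsi N := by
  rw [Nat.card_congr (hermiteSigmaEquiv N), Nat.card_sigma, ← psiSum_eq_dedekindPsi, psiSum,
    ← Finset.sum_coe_sort N.divisors fun a => psiTerm a (N / a)]
  refine Finset.sum_congr rfl fun a _ => ?_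
  rw [Nat.card_eq_finsetCard, psiTerm]
  set g := Nat.gcd a.1 (N / a.1)
  obtain ⟨m, hm⟩ : g ∣ N / a.1 := Nat.gcd_dvd_right _ _
  rw [hm, card_range_coprime_gcd]
  rcases Nat.eq_zero_or_pos g with h0 | h0
  · simp [h0]
  · rw [Nat.mul_div_cancel_left _ h0]

/-- `[SL(2,ℤ) : Γ₀(N)] = ψ(N)`. -/
theorem card_coset (N : ℕ) [NeZero N] : Nat.card (Coset N) = ModularCurve.dedekindPsi N := by
  rw [Nat.card_congr (hermiteEquiv N), card_hermite]

section PrimeOrder

variable {G X : Type*} [Group G] [MulAction G X]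

theorem subsingleton_orbit_zpowers_of_fixed {a : G} {x : X} (hx : a • x = x) :
    MulAction.orbit (Subgroup.zpowers a) x = {x} := by
  refine Set.eq_singleton_iff_unique_mem.mpr ⟨MulAction.mem_orbit_self x, ?_⟩
  rintro y ⟨⟨b, hb⟩, rfl⟩
  have : Subgroup.zpowers a ≤ MulAction.stabilizer G x := by
    rw [Subgroup.zpowers_le]; exact hx
  exact this hb

/-- If `a ^ p` acts trivially, `p` prime, then `p * #orbits = #X + (p - 1) * #fixed`. -/
theorem mul_card_orbits_of_prime [Finite X] (a : G) {p : ℕ} (hp : p.Prime)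
    (ha : ∀ x : X, a ^ p • x = x) :
    p * Nat.card (MulAction.orbitRel.Quotient (Subgroup.zpowers a) X) =
      Nat.card X + (p - 1) * Nat.card {x : X // a • x = x} := by
  classical
  have : Fintype X := Fintype.ofFinite X
  let Ω := MulAction.orbitRel.Quotient (Subgroup.zpowers a) X
  have : Fintype Ω := Fintype.ofFinite Ω
  let P : Ω → Prop := fun ω => a • ω.out = ω.out
  have hsize : ∀ ω : Ω, Nat.card (MulAction.orbit (Subgroup.zpowers a) ω.out) =
      if P ω then 1 else p := by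
    intro ω
    rw [Nat.card_congr (MulAction.orbitZPowersEquiv a ω.out), Nat.card_zmod]
    split_ifs with h
    · exact Function.minimalPeriod_eq_one_iff_isFixedPt.mpr h
    · have hdvd : Function.minimalPeriod (a • ·) ω.out ∣ p :=
        MulAction.pow_smul_eq_iff_minimalPeriod_dvd.mp (ha _)
      rcases (Nat.dvd_prime hp).mp hdvd with h1 | h1
      · exact absurd (Function.minimalPeriod_eq_one_iff_isFixedPt.mp h1) h
      · exact h1
  have hfix : Nat.card {x : X // a • x = x} = Nat.card {ω : Ω // P ω} := by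
    symm
    refine Nat.card_eq_of_bijective (fun ω => ⟨ω.1.out, ω.2⟩) ⟨?_, ?_⟩
    · intro u v huv
      exact Subtype.ext (Quotient.out_injective (congrArg Subtype.val huv))
    · rintro ⟨x, hx⟩
      have hout : (Quotient.mk'' x : Ω).out = x := by
        have h1 : (Quotient.mk'' x : Ω).out ∈ MulAction.orbit (Subgroup.zpowers a) x :=
          MulAction.orbitRel_apply.mp (Quotient.mk_out (s := MulAction.orbitRel _ X) x)
        rwa [subsingleton_orbit_zpowers_of_fixed hx] at h1
      exact ⟨⟨Quotient.mk'' x, by show a • _ = _; rw [hout, hx]⟩, Subtype.ext hout⟩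
  have hX : Nat.card X = ∑ ω : Ω, if P ω then 1 else p := by
    rw [Nat.card_congr (MulAction.selfEquivSigmaOrbits (Subgroup.zpowers a) X), Nat.card_sigma]
    exact Finset.sum_congr rfl fun ω _ => hsize ω
  rw [hfix, hX, Nat.card_eq_fintype_card, Nat.card_eq_fintype_card, Fintype.card_subtype,
    Finset.sum_ite, Finset.sum_const, Finset.sum_const, smul_eq_mul, smul_eq_mul, mul_one,
    show Fintype.card Ω = #{ω : Ω | P ω} + #{ω : Ω | ¬ P ω} by
      rw [Finset.card_filter_add_card_filter_not, Finset.card_univ]]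
  obtain ⟨q, rfl⟩ : ∃ q, p = q + 1 := ⟨p - 1, (Nat.succ_pred_eq_of_pos hp.pos).symm⟩
  rw [Nat.add_sub_cancel]
  ring

end PrimeOrder

theorem S_sq_smul {N : ℕ} (x : Coset N) : S ^ 2 • x = x := by
  rw [sq, mul_smul, S_smul_S_smul]

/-- `2 * #(S-orbits) = ψ + ν₂`. -/
theorem two_mul_card_S_orbits (N : ℕ) [NeZero N] :
    2 * Nat.card (MulAction.orbitRel.Quotient (Subgroup.zpowers S) (Coset N)) =
      ModularCurve.dedekindPsi N + ModularCurve.nuTwo N := by
  have h := mul_card_orbits_of_prime (X := Coset N) S Nat.prime_two S_sq_smul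
  rw [card_coset, card_fixed_S] at h
  exact h.trans (by ring)

/-- `3 * #(ST-orbits) = ψ + 2 ν₃`. -/
theorem three_mul_card_ST_orbits (N : ℕ) [NeZero N] :
    3 * Nat.card (MulAction.orbitRel.Quotient (Subgroup.zpowers (S * T)) (Coset N)) =
      ModularCurve.dedekindPsi N + 2 * ModularCurve.nuThree N := by
  have h := mul_card_orbits_of_prime (X := Coset N) (S * T) Nat.prime_three ST_pow_three_smul
  rw [card_coset, card_fixed_ST] at h
  exact h.trans (by ring)

/-- The `T`-orbits on cosets (the cusps of `Γ₀(N)`). -/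
abbrev CuspOrbit (N : ℕ) : Type := MulAction.orbitRel.Quotient (Subgroup.zpowers T) (Coset N)

/-- Index set of the cusps: `a ∣ N` and a unit modulo `gcd(a, N/a)`. -/
abbrev CuspIndex (N : ℕ) : Type :=
  Σ a : {a // a ∈ N.divisors}, (ZMod (Nat.gcd a.1 (N / a.1)))ˣ

/-- The cusp index of a Hermite form: `a` and `b mod gcd(a,d)`. -/
def Hermite.cuspIndex {N : ℕ} [NeZero N] (h : Hermite N) : CuspIndex N :=
  ⟨⟨h.a, Nat.mem_divisors.mpr ⟨h.a_dvd, NeZero.ne N⟩⟩,
    ZMod.unitOfCoprime h.b (by rw [← h.d_eq]; exact h.coprime_g_b)⟩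

theorem Hermite.cuspIndex_eq_iff {N : ℕ} [NeZero N] (h h' : Hermite N) :
    h.cuspIndex = h'.cuspIndex ↔ ∃ n : ℤ, h.shift n = h' := by
  constructor
  · intro e
    obtain ⟨a, b, d, hm, hb, hg⟩ := h
    obtain ⟨a', b', d', hm', hb', hg'⟩ := h'
    have ha : a = a' := congrArg (fun p => p.1.1) e
    subst ha
    have hd : d = d' := Nat.eq_of_mul_eq_mul_left
      (Hermite.a_pos ⟨a, b, d, hm, hb, hg⟩) (hm.trans hm'.symm)
    subst hd
    simp only [Hermite.cuspIndex, Sigma.mk.injEq, heq_eq_eq, true_and] at e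
    have e2 := congrArg Units.val e
    simp only [ZMod.coe_unitOfCoprime] at e2
    rw [(Hermite.d_eq ⟨a, b, d, hm, hb, hg⟩).symm] at e2
    rw [ZMod.natCast_eq_natCast_iff, Nat.modEq_iff_dvd] at e2
    obtain ⟨c, hc⟩ := e2
    refine ⟨-(c * Nat.gcdA a d), ?_⟩
    rw [Hermite.shift_eq_iff]
    refine ⟨rfl, rfl, ⟨c * Nat.gcdB a d, ?_⟩⟩
    dsimp only
    linear_combination hc + c * Nat.gcd_eq_gcd_ab a d
  · rintro ⟨n, rfl⟩
    refine Sigma.ext (Subtype.ext rfl) (heq_of_eq (Units.ext ?_))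
    change ((h.b : ℕ) : ZMod (Nat.gcd h.a (N / h.a))) =
      (((h.shift n).b : ℕ) : ZMod (Nat.gcd h.a (N / h.a)))
    rw [ZMod.natCast_eq_natCast_iff, Nat.modEq_iff_dvd, Hermite.shift_b_cast, Int.emod_def,
      ← h.d_eq]
    have h1 : (Nat.gcd h.a h.d : ℤ) ∣ h.a := Int.natCast_dvd_natCast.mpr (Nat.gcd_dvd_left _ _)
    have h2 : (Nat.gcd h.a h.d : ℤ) ∣ h.d := Int.natCast_dvd_natCast.mpr (Nat.gcd_dvd_right _ _)
    convert! dvd_add (dvd_mul_of_dvd_right h1 (-n))
      (dvd_mul_of_dvd_left h2 (-(((h.b : ℤ) - n * h.a) / h.d))) using 1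
    ring

theorem Hermite.cuspIndex_surjective (N : ℕ) [NeZero N] :
    Function.Surjective (Hermite.cuspIndex : Hermite N → CuspIndex N) := by
  rintro ⟨⟨a, ha⟩, u⟩
  have ha' := Nat.mem_divisors.mp ha
  have hd : 0 < N / a :=
    Nat.div_pos (Nat.le_of_dvd (NeZero.pos N) ha'.1) (Nat.pos_of_dvd_of_pos ha'.1 (NeZero.pos N))
  have : NeZero (Nat.gcd a (N / a)) := ⟨(Nat.gcd_pos_of_pos_right _ hd).ne'⟩
  refine ⟨⟨a, (u : ZMod (Nat.gcd a (N / a))).val, N / a, Nat.mul_div_cancel' ha'.1,
    (ZMod.val_lt _).trans_le (Nat.le_of_dvd hd (Nat.gcd_dvd_right _ _)),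
    Nat.coprime_comm.mp (ZMod.val_coe_unit_coprime u)⟩, ?_⟩
  refine Sigma.ext rfl (heq_of_eq (Units.ext ?_))
  simp [Hermite.cuspIndex]

theorem mk_cuspOrbit_eq_iff {N : ℕ} [NeZero N] (x y : Coset N) :
    (Quotient.mk'' x : CuspOrbit N) = Quotient.mk'' y ↔
      (toHermite x).cuspIndex = (toHermite y).cuspIndex := by
  rw [Hermite.cuspIndex_eq_iff, Quotient.eq'', MulAction.orbitRel_apply, MulAction.mem_orbit_iff]
  constructor
  · rintro ⟨⟨b, hb⟩, hbe⟩
    obtain ⟨n, rfl⟩ := Subgroup.mem_zpowers_iff.mp hb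
    refine ⟨-n, ?_⟩
    replace hbe : T ^ n • y = x := hbe
    rw [← toHermite_T_zpow_smul, ← hbe, zpow_neg, inv_smul_smul]
  · rintro ⟨n, hn⟩
    rw [← toHermite_T_zpow_smul] at hn
    refine ⟨⟨T ^ (-n), Subgroup.mem_zpowers_iff.mpr ⟨-n, rfl⟩⟩, ?_⟩
    show T ^ (-n) • y = x
    rw [← toHermite_bijective.1 hn, zpow_neg, inv_smul_smul]

/-- The cusps, as `T`-orbits, are indexed by `CuspIndex N`. -/
noncomputable def cuspOrbitEquiv (N : ℕ) [NeZero N] : CuspOrbit N ≃ CuspIndex N :=
  Equiv.ofBijective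
    (Quotient.lift (fun x => (toHermite x).cuspIndex) fun x y h =>
      (mk_cuspOrbit_eq_iff x y).mp (Quotient.sound h))
    ⟨fun u v => by
      induction u using Quotient.inductionOn with
      | h x =>
        induction v using Quotient.inductionOn with
        | h y => exact fun h => (mk_cuspOrbit_eq_iff x y).mpr h,
      fun i => by
        obtain ⟨h, rfl⟩ := Hermite.cuspIndex_surjective N i
        obtain ⟨x, rfl⟩ := (toHermite_bijective (N := N)).2 h
        exact ⟨Quotient.mk'' x, rfl⟩⟩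

/-- The number of `T`-orbits is the number of cusps. -/
theorem card_T_orbits (N : ℕ) [NeZero N] : Nat.card (CuspOrbit N) = ModularCurve.cuspCount N := by
  have hne : ∀ a : {a // a ∈ N.divisors}, NeZero (Nat.gcd a.1 (N / a.1)) := fun a =>
    ⟨fun h => by
      have := Nat.gcd_eq_zero_iff.mp h
      exact (Nat.pos_of_mem_divisors a.2).ne' this.1⟩
  rw [Nat.card_congr (cuspOrbitEquiv N), Nat.card_sigma, ModularCurve.cuspCount,
    ← Finset.sum_coe_sort N.divisors fun a => Nat.totient (Nat.gcd a (N / a))]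
  refine Finset.sum_congr rfl fun a _ => ?_
  rw [Nat.card_eq_fintype_card, ZMod.card_units_eq_totient]

/-- The width of the cusp of a coset: the size of its `T`-orbit. -/
noncomputable def cuspWidth {N : ℕ} [NeZero N] (x : Coset N) : ℕ := (toHermite x).width

theorem cuspWidth_pos {N : ℕ} [NeZero N] (x : Coset N) : 0 < cuspWidth x :=
  Hermite.width_pos _

theorem minimalPeriod_T {N : ℕ} [NeZero N] (x : Coset N) :
    Function.minimalPeriod (T • ·) x = cuspWidth x := by
  have key : ∀ n : ℕ, Function.minimalPeriod (T • ·) x ∣ n ↔ cuspWidth x ∣ n := fun n => by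
    rw [← MulAction.pow_smul_eq_iff_minimalPeriod_dvd, ← zpow_natCast, T_zpow_smul_eq_self_iff,
      Int.natCast_dvd_natCast, cuspWidth]
  exact Nat.dvd_antisymm ((key _).mpr dvd_rfl) ((key _).mp dvd_rfl)

/-- The width of a cusp is the size of the orbit of `T`. -/
theorem card_T_orbit {N : ℕ} [NeZero N] (x : Coset N) :
    Nat.card (MulAction.orbit (Subgroup.zpowers T) x) = cuspWidth x := by
  exact (Nat.card_congr (MulAction.orbitZPowersEquiv T x)).trans
    ((Nat.card_zmod _).trans (minimalPeriod_T x))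

/-- The width of a cusp orbit. -/
noncomputable def orbitWidth {N : ℕ} [NeZero N] (ω : CuspOrbit N) : ℕ := cuspWidth ω.out

theorem orbitWidth_mk {N : ℕ} [NeZero N] (x : Coset N) :
    orbitWidth (Quotient.mk'' x : CuspOrbit N) = cuspWidth x := by
  have h1 := MulAction.orbitRel_apply.mp
    (Quotient.mk_out (s := MulAction.orbitRel (Subgroup.zpowers T) (Coset N)) x)
  rw [orbitWidth, ← card_T_orbit, ← card_T_orbit]
  exact Nat.card_congr (Equiv.setCongr (MulAction.orbit_eq_iff.mpr h1))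

/-- Euler characteristic of the closed surface on the cosets: `V₂ + V₃ - E + F = 2 - 2g`. -/
theorem euler_char_eq (N : ℕ) [NeZero N] :
    (Nat.card (MulAction.orbitRel.Quotient (Subgroup.zpowers S) (Coset N)) : ℚ) +
      Nat.card (MulAction.orbitRel.Quotient (Subgroup.zpowers (S * T)) (Coset N)) -
      Nat.card (Coset N) + Nat.card (CuspOrbit N) =
      2 - 2 * ModularCurve.genusFormula N := by
  have h2 := congrArg (Nat.cast : ℕ → ℚ) (two_mul_card_S_orbits N)
  have h3 := congrArg (Nat.cast : ℕ → ℚ) (three_mul_card_ST_orbits N)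
  push_cast at h2 h3
  rw [card_coset, card_T_orbits, ModularCurve.genusFormula]
  linarith

end Fermat.Agent.Cosets
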