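import Fermat.Agent.Cosets.ParEllHoms
import Fermat.Agent.Cosets.Count

/-!
# Parabolic homomorphisms of `Γ₀(N)`

Homomorphisms `Γ₀(N) → A` killing elliptic and parabolic elements form `A ^ homRank N`, where
`homRank N = 2 · genus`.

## Main results

* `homRank_eq`: `homRank N` is twice the genus formula.
* `parEllHomsEquiv`, `exists_integral_basis_parEllHoms`: the coordinates.
* `natCard_parEllHoms`, `finrank_parabolicHoms`: the cardinality and the complex dimension.
-/

set_option autoImplicit false

open scoped MatrixGroups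
open ModularGroup CongruenceSubgroup Fermat.Agent.Cosets.Presentation Fermat.Agent.Cosets.Cocycle

namespace Fermat.Agent.Cosets

noncomputable section

/-- Cycles of the permutation induced by `g` are its orbits. -/
def sameCycleEquivOrbits {G X : Type*} [Group G] [MulAction G X] (g : G) :
    Quotient (Equiv.Perm.SameCycle.setoid (MulAction.toPerm g : Equiv.Perm X)) ≃
      MulAction.orbitRel.Quotient (Subgroup.zpowers g) X :=
  Quotient.congrRight fun a b => by
    have hp : ∀ (n : ℤ) (z : X), ((MulAction.toPerm g : Equiv.Perm X) ^ n) z = g ^ n • z :=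
      fun n z => (Equiv.ext_iff.mp (map_zpow (MulAction.toPermHom G X) g n) z).symm
    show Equiv.Perm.SameCycle _ a b ↔ _
    rw [MulAction.orbitRel_apply]
    constructor
    · rintro ⟨n, hn⟩
      rw [hp] at hn
      exact ⟨⟨g ^ (-n), Subgroup.zpow_mem_zpowers g _⟩, by
        show g ^ (-n) • b = a
        rw [zpow_neg, ← hn, inv_smul_smul]⟩
    · rintro ⟨⟨k, hk⟩, hka⟩
      obtain ⟨n, rfl⟩ := Subgroup.mem_zpowers_iff.mp hk
      refine ⟨-n, ?_⟩
      rw [hp, zpow_neg, inv_smul_eq_iff]
      exact hka.symm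

theorem permU_mul_permS_eq {X : Type*} [MulAction SL(2, ℤ) X] (hneg : TrivNegOne X) :
    permU X * permS X = MulAction.toPerm (T : SL(2, ℤ)) :=
  Equiv.ext fun x => permU_mul_permS hneg x

theorem card_matU_orbits (N : ℕ) :
    Nat.card (Quotient (Equiv.Perm.SameCycle.setoid (permU (Coset N))))
      = Nat.card (MulAction.orbitRel.Quotient (Subgroup.zpowers (S * T : SL(2, ℤ))) (Coset N)) := by
  refine Eq.trans ?_ (Nat.card_congr (sameCycleEquivOrbits (X := Coset N) (S * T : SL(2, ℤ))))
  refine Nat.card_congr (Quotient.congr (MulAction.toPerm (T : SL(2, ℤ))) fun a b => ?_).symm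
  show Equiv.Perm.SameCycle _ a b ↔ Equiv.Perm.SameCycle _ _ _
  have key : permU (Coset N)
      = MulAction.toPerm (T : SL(2, ℤ)) * MulAction.toPerm (S * T : SL(2, ℤ))
        * (MulAction.toPerm (T : SL(2, ℤ)))⁻¹ := by
    ext x
    show matU • x = T • (S * T) • T⁻¹ • x
    rw [matU_def, ← mul_smul, ← mul_smul]
    congr 1
    group
  rw [key, Equiv.Perm.sameCycle_conj]
  simp

/-- Rank of the group of parabolic homomorphisms of `Γ₀(N)`: twice the genus. -/
def homRank (N : ℕ) [NeZero N] : ℕ :=
  letI := Fintype.ofFinite (Coset N)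
  surfaceRank (Coset N)

/-- `homRank N` is twice the genus of `X₀(N)`. -/
theorem homRank_eq (N : ℕ) [NeZero N] :
    (homRank N : ℚ) = 2 * ModularCurve.genusFormula N := by
  let := Fintype.ofFinite (Coset N)
  obtain ⟨i, p, h₀, h₁, hcount, -⟩ := surfaceRank_spec (Coset N)
  rw [← Nat.card_eq_fintype_card, ← Nat.card_eq_fintype_card, ← Nat.card_eq_fintype_card,
    Nat.card_sum, card_matU_orbits] at hcount
  have hS : Nat.card (Quotient (Equiv.Perm.SameCycle.setoid (permS (Coset N))))
      = Nat.card (MulAction.orbitRel.Quotient (Subgroup.zpowers (S : SL(2, ℤ))) (Coset N)) :=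
    Nat.card_congr (sameCycleEquivOrbits (X := Coset N) (S : SL(2, ℤ)))
  rw [hS] at hcount
  have hF : Nat.card (Graph.Face (permS (Coset N)) (permU (Coset N)))
      = ModularCurve.cuspCount N := by
    refine Eq.trans ?_ (card_T_orbits N)
    refine Eq.trans ?_ (Nat.card_congr (sameCycleEquivOrbits (X := Coset N) (T : SL(2, ℤ))))
    rw [Graph.Face, permU_mul_permS_eq (fun x => neg_one_smul' x)]
  have h2 := two_mul_card_S_orbits N
  have h3 := three_mul_card_ST_orbits N
  rw [card_coset, hF] at hcount
  have hc : homRank N = surfaceRank (Coset N) := rfl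
  rw [← hc] at hcount
  qify at hcount h2 h3
  rw [ModularCurve.genusFormula]
  linarith

/-- `A ^ (2g) ≃ {φ : Γ₀(N) → A killing elliptic and parabolic elements}`. -/
def parEllHomsEquiv (N : ℕ) [NeZero N] (R : Type*) [Semiring R] (A : Type*) [AddCommGroup A]
    [Module R A] : (Fin (homRank N) → A) ≃ₗ[R] parEllHoms R (Gamma0 N) A :=
  letI := Fintype.ofFinite (Coset N)
  (nonempty_linearEquiv_parEllHoms (X := Coset N) (fun x => neg_one_smul' x)
    ((1 : SL(2, ℤ)) : Coset N) (MulAction.stabilizer_quotient _)).some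

/-- An integral basis which works for every coefficient module. -/
theorem exists_integral_basis_parEllHoms (N : ℕ) [NeZero N] :
    ∃ b : Fin (homRank N) → parEllHoms ℤ (Gamma0 N) ℤ,
      ∀ (R : Type*) [Semiring R] (A : Type*) [AddCommGroup A] [Module R A],
        ∃ e : (Fin (homRank N) → A) ≃ₗ[R] parEllHoms R (Gamma0 N) A,
          ∀ a γ, (e a : Additive (Gamma0 N) →+ A) γ
            = ∑ j, (b j : Additive (Gamma0 N) →+ ℤ) γ • a j :=
  letI := Fintype.ofFinite (Coset N)
  exists_integral_basis (X := Coset N) (fun x => neg_one_smul' x)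
    ((1 : SL(2, ℤ)) : Coset N) (MulAction.stabilizer_quotient _)

/-- The number of homomorphisms killing elliptic and parabolic elements. -/
theorem natCard_parEllHoms (N : ℕ) [NeZero N] (R : Type*) [Semiring R] (A : Type*)
    [AddCommGroup A] [Module R A] :
    Nat.card (parEllHoms R (Gamma0 N) A) = Nat.card A ^ homRank N := by
  rw [← Nat.card_congr (parEllHomsEquiv N R A).toEquiv, Nat.card_fun, Nat.card_fin]

theorem complex_parabolicHoms_eq (Γ : Subgroup SL(2, ℤ)) :
    ModularCurve.Period.parabolicHoms ℂ Γ ℂ = parEllHoms ℂ Γ ℂ :=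
  parabolicHoms_eq_parEllHoms ℂ Γ ℂ fun a ha => by simpa using ha

theorem finiteDimensional_parabolicHoms (N : ℕ) [NeZero N] :
    FiniteDimensional ℂ (ModularCurve.Period.parabolicHoms ℂ (Gamma0 N) ℂ) := by
  rw [complex_parabolicHoms_eq]
  exact (parEllHomsEquiv N ℂ ℂ).finiteDimensional

/-- The space of complex parabolic homomorphisms has dimension twice the genus. -/
theorem finrank_parabolicHoms (N : ℕ) [NeZero N] :
    (Module.finrank ℂ (ModularCurve.Period.parabolicHoms ℂ (Gamma0 N) ℂ) : ℚ)
      = 2 * ModularCurve.genusFormula N := by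
  rw [complex_parabolicHoms_eq, ← (parEllHomsEquiv N ℂ ℂ).finrank_eq,
    Module.finrank_fintype_fun_eq_card, Fintype.card_fin, homRank_eq]

end

end Fermat.Agent.Cosets
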