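import Mathlib

/-!
# First cohomology of the closed surface attached to a pair of permutations

For permutations `σ τ` of a finite set `E` (edges) generating a transitive group, the complex
`A^V → A^E → A^F` (vertices: cycles of `σ` and of `τ`; faces: cycles of `τ * σ`) has middle
cohomology free of rank `r`, `#E + 2 = #V + #F + r`, uniformly in the coefficient group `A`.

## Main results

* `exists_splitting`: integral maps which split the complex and give the rank.
* `extMap`: extension of an integral linear map to any coefficient group.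
-/

set_option autoImplicit false

open scoped BigOperators

namespace Fermat.Agent.Cosets.Graph

noncomputable section

section Ext

variable {ι κ μ : Type*} [Fintype ι] [Fintype κ]
variable (R A : Type*) [Semiring R] [AddCommGroup A] [Module R A]

/-- Extension of an integral linear map to arbitrary coefficients. -/
def extMap (L : (ι → ℤ) →ₗ[ℤ] (μ → ℤ)) : (ι → A) →ₗ[R] (μ → A) := by
  classical exact
  { toFun := fun y k => ∑ i, L (Pi.single i 1) k • y i
    map_add' := fun y z => by ext k; simp [smul_add, Finset.sum_add_distrib]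
    map_smul' := fun c y => by
      ext k
      simp only [Pi.smul_apply, RingHom.id_apply, Finset.smul_sum]
      exact Finset.sum_congr rfl fun i _ => (smul_comm _ _ _) }

theorem extMap_apply [DecidableEq ι] (L : (ι → ℤ) →ₗ[ℤ] (μ → ℤ)) (y : ι → A) (k : μ) :
    extMap R A L y k = ∑ i, L (Pi.single i 1) k • y i := by
  unfold extMap
  simp only [LinearMap.coe_mk, AddHom.coe_mk]
  convert rfl

theorem apply_eq_sum_single [DecidableEq ι] (L : (ι → ℤ) →ₗ[ℤ] (μ → ℤ)) (x : ι → ℤ) (k : μ) :
    L x k = ∑ i, x i * L (Pi.single i 1) k := by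
  conv_lhs => rw [show x = ∑ i, x i • (Pi.single i 1 : ι → ℤ) by
    ext j; simp [Finset.sum_apply, Pi.single_apply]]
  rw [map_sum, Finset.sum_apply]
  simp only [map_smul, Pi.smul_apply, smul_eq_mul]

theorem extMap_comp (L : (κ → ℤ) →ₗ[ℤ] (μ → ℤ)) (M : (ι → ℤ) →ₗ[ℤ] (κ → ℤ)) (y : ι → A) :
    extMap R A (L ∘ₗ M) y = extMap R A L (extMap R A M y) := by
  classical
  ext k
  simp only [extMap_apply, LinearMap.comp_apply, Finset.smul_sum]
  rw [Finset.sum_comm]
  refine Finset.sum_congr rfl fun i _ => ?_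
  rw [apply_eq_sum_single L, Finset.sum_smul]
  exact Finset.sum_congr rfl fun j _ => by rw [smul_smul, mul_comm]

theorem extMap_id (y : ι → A) : extMap R A (LinearMap.id : (ι → ℤ) →ₗ[ℤ] (ι → ℤ)) y = y := by
  classical
  ext k
  simp [extMap_apply, Pi.single_apply, ite_smul]

theorem extMap_add (L M : (ι → ℤ) →ₗ[ℤ] (μ → ℤ)) (y : ι → A) :
    extMap R A (L + M) y = extMap R A L y + extMap R A M y := by
  classical
  ext k
  simp [extMap_apply, add_smul, Finset.sum_add_distrib]

theorem extMap_zero (y : ι → A) : extMap R A (0 : (ι → ℤ) →ₗ[ℤ] (μ → ℤ)) y = 0 := by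
  classical
  ext k
  simp [extMap_apply]

end Ext

variable {E : Type*} [Fintype E] (σ τ : Equiv.Perm E)

/-- Vertices: cycles of `σ` and of `τ`. -/
abbrev Vertex : Type _ :=
  Quotient (Equiv.Perm.SameCycle.setoid σ) ⊕ Quotient (Equiv.Perm.SameCycle.setoid τ)

/-- Faces: cycles of `τ * σ`. -/
abbrev Face : Type _ := Quotient (Equiv.Perm.SameCycle.setoid (τ * σ))

instance instFintypeVertex : Fintype (Vertex σ τ) := Fintype.ofFinite _
instance instFintypeFace : Fintype (Face σ τ) := Fintype.ofFinite _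

variable (R A : Type*) [Semiring R] [AddCommGroup A] [Module R A]

/-- Coboundary of a potential. -/
def coboundary : (Vertex σ τ → A) →ₗ[R] (E → A) where
  toFun v e := v (Sum.inl (Quotient.mk _ e)) + v (Sum.inr (Quotient.mk _ e))
  map_add' v w := by ext e; simp only [Pi.add_apply]; abel
  map_smul' c v := by ext e; simp [smul_add]

/-- Sums around faces. -/
def faceMap : (E → A) →ₗ[R] (Face σ τ → A) := by
  classical exact
  { toFun := fun y q => ∑ e, if Quotient.mk _ e = q then y e - y (σ e) else 0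
    map_add' := fun y z => by
      ext q
      simp only [Pi.add_apply, ← Finset.sum_add_distrib]
      exact Finset.sum_congr rfl fun e _ => by split_ifs <;> abel
    map_smul' := fun c y => by
      ext q
      simp only [Pi.smul_apply, RingHom.id_apply, Finset.smul_sum]
      exact Finset.sum_congr rfl fun e _ => by split_ifs <;> simp [smul_sub] }

omit [Fintype E] in
theorem coboundary_apply (v : Vertex σ τ → A) (e : E) :
    coboundary σ τ R A v e = v (Sum.inl (Quotient.mk _ e)) + v (Sum.inr (Quotient.mk _ e)) := rfl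

theorem faceMap_apply [DecidableEq (Face σ τ)] (y : E → A) (q : Face σ τ) :
    faceMap σ τ R A y q = ∑ e, if Quotient.mk _ e = q then y e - y (σ e) else 0 := by
  unfold faceMap
  simp only [LinearMap.coe_mk, AddHom.coe_mk]
  convert rfl

theorem faceMap_coboundary (v : Vertex σ τ → A) :
    faceMap σ τ R A (coboundary σ τ R A v) = 0 := by
  classical
  ext q
  have hS : ∀ e, (Quotient.mk (Equiv.Perm.SameCycle.setoid σ) (σ e)) = Quotient.mk _ e :=
    fun e => Quotient.sound ((Equiv.Perm.sameCycle_apply_left (f := σ)).mpr ⟨0, rfl⟩)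
  have hT : ∀ e, Quotient.mk (Equiv.Perm.SameCycle.setoid τ) (σ e)
      = Quotient.mk (Equiv.Perm.SameCycle.setoid τ) ((τ * σ) e) :=
    fun e => Quotient.sound ((Equiv.Perm.sameCycle_apply_right (f := τ)).mpr ⟨0, rfl⟩)
  have hF : ∀ e, (Quotient.mk _ ((τ * σ) e) : Face σ τ) = Quotient.mk _ e :=
    fun e => Quotient.sound
      ((Equiv.Perm.sameCycle_apply_left (f := τ * σ)).mpr ⟨0, rfl⟩)
  let f : E → A := fun e => v (Sum.inr (Quotient.mk _ e))
  rw [faceMap_apply, Pi.zero_apply]
  have : ∀ e, (if (Quotient.mk _ e : Face σ τ) = q then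
        coboundary σ τ R A v e - coboundary σ τ R A v (σ e) else 0)
      = (if (Quotient.mk _ e : Face σ τ) = q then f e else 0)
        - (if (Quotient.mk _ ((τ * σ) e) : Face σ τ) = q then f ((τ * σ) e) else 0) := by
    intro e
    rw [hF, coboundary_apply, coboundary_apply, hS, hT]
    split_ifs <;> simp [f]
  rw [Finset.sum_congr rfl (fun e _ => this e), Finset.sum_sub_distrib,
    Equiv.sum_comp (τ * σ) (fun e => if (Quotient.mk _ e : Face σ τ) = q then f e else 0), sub_self]

theorem sum_faceMap (y : E → A) : ∑ q, faceMap σ τ R A y q = 0 := by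
  classical
  simp only [faceMap_apply]
  rw [Finset.sum_comm]
  simp [Finset.sum_sub_distrib, Equiv.sum_comp σ y]

theorem extMap_coboundary (v : Vertex σ τ → A) :
    extMap R A (coboundary σ τ ℤ ℤ) v = coboundary σ τ R A v := by
  classical
  ext e
  simp [extMap_apply, coboundary_apply, Pi.single_apply, add_smul, ite_smul,
    Finset.sum_add_distrib]

theorem extMap_faceMap (y : E → A) :
    extMap R A (faceMap σ τ ℤ ℤ) y = faceMap σ τ R A y := by
  classical
  ext q
  simp only [extMap_apply, faceMap_apply, Finset.sum_smul]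
  rw [Finset.sum_comm]
  refine Finset.sum_congr rfl fun e _ => ?_
  split_ifs with h
  · simp [Pi.single_apply, sub_smul, ite_smul, Finset.sum_sub_distrib]
  · simp

/-- Transitivity hypothesis, in predicate form. -/
def Connected : Prop :=
  ∀ P : E → Prop, (∀ x, P (σ x) ↔ P x) → (∀ x, P (τ x) ↔ P x) → ∀ x y, P x → P y

variable {σ τ}

omit [Fintype E] in
theorem coboundary_eq_zero (hc : Connected σ τ) (e₀ : E) {v : Vertex σ τ → A}
    (h : coboundary σ τ R A v = 0) :
    ∀ x, v x = Sum.elim (fun _ => -v (Sum.inr (Quotient.mk _ e₀)))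
      (fun _ => v (Sum.inr (Quotient.mk _ e₀))) x := by
  let g : E → A := fun e => v (Sum.inr (Quotient.mk _ e))
  have hv : ∀ e, v (Sum.inl (Quotient.mk _ e)) = -g e := fun e =>
    eq_neg_of_add_eq_zero_left (congrFun h e)
  have hgτ : ∀ e, g (τ e) = g e := fun e => congrArg (fun q => v (Sum.inr q))
    (Quotient.sound ((Equiv.Perm.sameCycle_apply_left (f := τ)).mpr ⟨0, rfl⟩))
  have hgσ : ∀ e, g (σ e) = g e := fun e => by
    have := congrArg (fun q => v (Sum.inl q))
      (Quotient.sound ((Equiv.Perm.sameCycle_apply_left (f := σ)).mpr ⟨0, rfl⟩) :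
        Quotient.mk (Equiv.Perm.SameCycle.setoid σ) (σ e) = Quotient.mk _ e)
    simpa [hv] using this
  have key : ∀ e, g e = g e₀ := fun e =>
    hc (fun x => g x = g e₀) (fun x => by rw [hgσ]) (fun x => by rw [hgτ]) e₀ e rfl
  rintro (q | q) <;> induction q using Quotient.inductionOn with | _ e => ?_
  · simp only [Sum.elim_inl, hv, key e]; rfl
  · simp only [Sum.elim_inr]; exact key e

omit [Fintype E] in
theorem smul_mem_range_coboundary [Nonempty E] (hc : Connected σ τ) {n : ℤ} (hn : n ≠ 0)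
    {y : E → ℤ} (h : n • y ∈ LinearMap.range (coboundary σ τ ℤ ℤ)) :
    y ∈ LinearMap.range (coboundary σ τ ℤ ℤ) := by
  obtain ⟨v, hv⟩ := h
  obtain ⟨e₀⟩ := ‹Nonempty E›
  set c := v (Sum.inr (Quotient.mk _ e₀))
  have h0 : coboundary σ τ ℤ (ZMod n.natAbs) (fun x => ((v x : ℤ) : ZMod n.natAbs)) = 0 := by
    ext e
    rw [coboundary_apply, ← Int.cast_add, ← coboundary_apply σ τ ℤ ℤ v e, hv]
    simp [(ZMod.intCast_zmod_eq_zero_iff_dvd _ _).mpr (Int.natAbs_dvd.mpr dvd_rfl)]
  have hdvd : ∀ x, n ∣ v x - Sum.elim (fun _ => -c) (fun _ => c) x := by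
    intro x
    rw [← Int.natAbs_dvd, ← ZMod.intCast_zmod_eq_zero_iff_dvd, Int.cast_sub, sub_eq_zero]
    have := coboundary_eq_zero ℤ (ZMod n.natAbs) hc e₀ h0 x
    rcases x with q | q <;> simpa [c] using this
  refine ⟨fun x => (v x - Sum.elim (fun _ => -c) (fun _ => c) x) / n, ?_⟩
  ext e
  refine mul_left_cancel₀ hn ?_
  rw [coboundary_apply, mul_add, Int.mul_ediv_cancel' (hdvd _), Int.mul_ediv_cancel' (hdvd _),
    show n * y e = (n • y) e from rfl, ← hv, coboundary_apply]
  simp

theorem mem_range_faceMap [Nonempty E] (hc : Connected σ τ) {u : Face σ τ → ℤ}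
    (hu : ∑ q, u q = 0) : u ∈ LinearMap.range (faceMap σ τ ℤ ℤ) := by
  classical
  obtain ⟨e₀⟩ := ‹Nonempty E›
  let q : E → Face σ τ := fun e => Quotient.mk _ e
  let P : E → Prop := fun x =>
    (Pi.single (q x) 1 - Pi.single (q e₀) 1 : Face σ τ → ℤ) ∈ LinearMap.range (faceMap σ τ ℤ ℤ)
  have hsingle : ∀ x, (Pi.single (q x) 1 - Pi.single (q (σ.symm x)) 1 : Face σ τ → ℤ)
      ∈ LinearMap.range (faceMap σ τ ℤ ℤ) := by
    intro x
    refine ⟨Pi.single x 1, ?_⟩
    ext p
    rw [faceMap_apply]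
    have : ∀ e, (if q e = p then (Pi.single x (1 : ℤ) : E → ℤ) e
          - (Pi.single x (1 : ℤ) : E → ℤ) (σ e) else 0)
        = (if e = x then (if q e = p then 1 else 0) else 0)
          - (if e = σ.symm x then (if q e = p then 1 else 0) else 0) := by
      intro e
      simp only [Pi.single_apply, Equiv.eq_symm_apply]
      split_ifs <;> simp_all
    rw [Finset.sum_congr rfl (fun e _ => this e), Finset.sum_sub_distrib]
    simp [Pi.single_apply, eq_comm]
  have step : ∀ x, P (σ.symm x) ↔ P x := by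
    intro x
    have hx : (Pi.single (q x) 1 - Pi.single (q e₀) 1 : Face σ τ → ℤ)
        = (Pi.single (q x) 1 - Pi.single (q (σ.symm x)) 1)
          + (Pi.single (q (σ.symm x)) 1 - Pi.single (q e₀) 1) := by abel
    simp only [P]
    rw [hx, Submodule.add_mem_iff_right _ (hsingle x)]
  have hτ : ∀ x, q (τ x) = q (σ.symm x) := fun x => Quotient.sound (by
    show (τ * σ).SameCycle _ _
    have : τ x = (τ * σ) (σ.symm x) := by simp
    rw [this]; exact (Equiv.Perm.sameCycle_apply_left).mpr ⟨0, rfl⟩)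
  have hP : ∀ x, P x := fun x => hc P
    (fun z => by rw [← step (σ z), Equiv.symm_apply_apply])
    (fun z => by
      have : P (τ z) ↔ P (σ.symm z) := by simp only [P, hτ]
      rw [this, step]) e₀ x (by simp only [P, sub_self]; exact zero_mem _)
  have : u = ∑ p, u p • (Pi.single p 1 - Pi.single (q e₀) 1 : Face σ τ → ℤ) := by
    ext p
    simp [Finset.sum_apply, Pi.single_apply, mul_sub, Finset.sum_sub_distrib, hu]
  rw [this]
  refine Submodule.sum_mem _ fun p _ => Submodule.smul_mem _ _ ?_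
  induction p using Quotient.inductionOn with | _ x => exact hP x

theorem range_faceMap_eq [Nonempty E] (hc : Connected σ τ) :
    LinearMap.range (faceMap σ τ ℤ ℤ)
      = LinearMap.ker (∑ q : Face σ τ, (LinearMap.proj q : (Face σ τ → ℤ) →ₗ[ℤ] ℤ)) := by
  ext u
  rw [LinearMap.mem_ker, LinearMap.coe_sum, Finset.sum_apply]
  refine ⟨?_, fun h => mem_range_faceMap hc h⟩
  rintro ⟨y, rfl⟩
  exact sum_faceMap σ τ ℤ ℤ y

omit [Fintype E] in
theorem finrank_ker_coboundary [Nonempty E] (hc : Connected σ τ) :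
    Module.finrank ℤ (LinearMap.ker (coboundary σ τ ℤ ℤ)) = 1 := by
  obtain ⟨e₀⟩ := ‹Nonempty E›
  let w : LinearMap.ker (coboundary σ τ ℤ ℤ) :=
    ⟨Sum.elim (fun _ => -1) (fun _ => 1), by ext e; simp [coboundary_apply]⟩
  have hb : Function.Bijective (LinearMap.toSpanSingleton ℤ _ w) := by
    constructor
    · intro a b hab
      simpa [w] using congrFun (congrArg Subtype.val hab) (Sum.inr (Quotient.mk _ e₀))
    · intro v
      refine ⟨(v : Vertex σ τ → ℤ) (Sum.inr (Quotient.mk _ e₀)), ?_⟩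
      apply Subtype.ext
      funext x
      rw [coboundary_eq_zero ℤ ℤ hc e₀ (LinearMap.mem_ker.mp v.2) x]
      rcases x with q | q <;> simp [w]
  rw [← (LinearEquiv.ofBijective _ hb).finrank_eq, Module.finrank_self]

theorem finrank_range_faceMap [Nonempty E] (hc : Connected σ τ) :
    Module.finrank ℤ (LinearMap.range (faceMap σ τ ℤ ℤ)) + 1 = Fintype.card (Face σ τ) := by
  classical
  obtain ⟨e₀⟩ := ‹Nonempty E›
  set s := ∑ q : Face σ τ, (LinearMap.proj q : (Face σ τ → ℤ) →ₗ[ℤ] ℤ)
  have hs : Function.Surjective s := fun a =>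
    ⟨Pi.single (Quotient.mk _ e₀) a, by simp [s]⟩
  have h1 := Submodule.finrank_quotient_add_finrank (LinearMap.ker s)
  rw [(LinearMap.quotKerEquivOfSurjective s hs).finrank_eq, Module.finrank_self,
    Module.finrank_fintype_fun_eq_card] at h1
  rw [range_faceMap_eq hc]
  show Module.finrank ℤ (LinearMap.ker s) + 1 = _
  omega

/-- Splitting of the integral complex. -/
theorem exists_splitting [Nonempty E] (hc : Connected σ τ) :
    ∃ (r : ℕ) (i : (Fin r → ℤ) →ₗ[ℤ] (E → ℤ)) (p : (E → ℤ) →ₗ[ℤ] (Fin r → ℤ))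
      (h₀ : (E → ℤ) →ₗ[ℤ] (Vertex σ τ → ℤ)) (h₁ : (Face σ τ → ℤ) →ₗ[ℤ] (E → ℤ)),
      Fintype.card E + 2 = Fintype.card (Vertex σ τ) + Fintype.card (Face σ τ) + r ∧
      faceMap σ τ ℤ ℤ ∘ₗ i = 0 ∧ p ∘ₗ coboundary σ τ ℤ ℤ = 0 ∧ p ∘ₗ i = LinearMap.id ∧
      i ∘ₗ p + coboundary σ τ ℤ ℤ ∘ₗ h₀ + h₁ ∘ₗ faceMap σ τ ℤ ℤ = LinearMap.id := by
  classical
  obtain ⟨e₀⟩ := ‹Nonempty E›
  set dd := coboundary σ τ ℤ ℤ with hdd
  set bb := faceMap σ τ ℤ ℤ with hbb
  set K := LinearMap.ker bb
  set D := LinearMap.range dd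
  have hDK : D ≤ K := by
    rintro _ ⟨v, rfl⟩
    exact faceMap_coboundary σ τ ℤ ℤ v
  -- section of the face map
  obtain ⟨s, hs⟩ := Module.projective_lifting_property bb.rangeRestrict LinearMap.id
    (LinearMap.surjective_rangeRestrict _)
  let q₀ : Face σ τ := Quotient.mk _ e₀
  let π : (Face σ τ → ℤ) →ₗ[ℤ] LinearMap.range bb :=
    LinearMap.codRestrict _ (LinearMap.id - (LinearMap.toSpanSingleton ℤ _ (Pi.single q₀ 1)) ∘ₗ
      (∑ q : Face σ τ, (LinearMap.proj q : (Face σ τ → ℤ) →ₗ[ℤ] ℤ))) (by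
        intro u
        rw [hbb, range_faceMap_eq hc, LinearMap.mem_ker]
        simp [Pi.single_apply, Finset.sum_sub_distrib, Finset.sum_apply])
  have hπ : ∀ y, π (bb y) = bb.rangeRestrict y := by
    intro y
    apply Subtype.ext
    have h := sum_faceMap σ τ ℤ ℤ y
    rw [← hbb] at h
    simp [π, h, LinearMap.codRestrict_apply]
  let h₁ := s ∘ₗ π
  have hh₁ : ∀ y, bb (h₁ (bb y)) = bb y := by
    intro y
    have := congrArg Subtype.val (LinearMap.congr_fun hs (π (bb y)))
    simpa [h₁, hπ] using this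
  -- cohomology
  let D' : Submodule ℤ K := D.comap K.subtype
  have : Module.IsTorsionFree ℤ (K ⧸ D') := by
    refine ⟨fun n hn => ?_⟩
    intro a b hab
    induction a using Submodule.Quotient.induction_on with | _ a => ?_
    induction b using Submodule.Quotient.induction_on with | _ b => ?_
    simp only [← Submodule.Quotient.mk_smul, Submodule.Quotient.eq] at hab ⊢
    exact smul_mem_range_coboundary hc hn.ne_zero (y := ((a - b : K) : E → ℤ))
      (by simpa [D', D, hdd, smul_sub] using hab)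
  let r := Module.finrank ℤ (K ⧸ D')
  let e : (K ⧸ D') ≃ₗ[ℤ] (Fin r → ℤ) := (Module.finBasis ℤ (K ⧸ D')).equivFun
  let q : K →ₗ[ℤ] (Fin r → ℤ) := e.toLinearMap ∘ₗ D'.mkQ
  obtain ⟨i', hi'⟩ := Module.projective_lifting_property q LinearMap.id
    (e.surjective.comp D'.mkQ_surjective)
  let g : (E → ℤ) →ₗ[ℤ] K := LinearMap.codRestrict K (LinearMap.id - h₁ ∘ₗ bb) (fun y => by
    simp [K, map_sub, hh₁])
  let i : (Fin r → ℤ) →ₗ[ℤ] (E → ℤ) := K.subtype ∘ₗ i'
  let p : (E → ℤ) →ₗ[ℤ] (Fin r → ℤ) := q ∘ₗ g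
  have hbi : ∀ a, bb (i a) = 0 := fun a => (i' a).2
  have hgi : ∀ a, g (i a) = i' a := fun a => Subtype.ext (by simp [g, i])
  have hqi : ∀ a, q (i' a) = a := fun a => LinearMap.congr_fun hi' a
  have hpi : ∀ a, p (i a) = a := fun a => by simp [p, hgi, hqi]
  have hD : ∀ y, ((g y - i' (p y) : K) : E → ℤ) ∈ D := by
    intro y
    have : q (g y - i' (p y)) = 0 := by rw [map_sub, hqi]; simp [p]
    have h' : D'.mkQ (g y - i' (p y)) = 0 := e.map_eq_zero_iff.mp this
    exact (Submodule.Quotient.mk_eq_zero D').mp h'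
  obtain ⟨t, ht⟩ := Module.projective_lifting_property dd.rangeRestrict LinearMap.id
    (LinearMap.surjective_rangeRestrict _)
  let h₀ : (E → ℤ) →ₗ[ℤ] (Vertex σ τ → ℤ) :=
    t ∘ₗ LinearMap.codRestrict D (K.subtype ∘ₗ (g - i' ∘ₗ p)) hD
  have hh₀ : ∀ y, dd (h₀ y) = (g y : E → ℤ) - i (p y) := by
    intro y
    have := congrArg Subtype.val
      (LinearMap.congr_fun ht (LinearMap.codRestrict D (K.subtype ∘ₗ (g - i' ∘ₗ p)) hD y))
    exact this.trans rfl
  have hdec : ∀ y, i (p y) + dd (h₀ y) + h₁ (bb y) = y := fun y => by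
    rw [hh₀]; simp [g]
  refine ⟨r, i, p, h₀, h₁, ?_, LinearMap.ext hbi, ?_, LinearMap.ext hpi, LinearMap.ext hdec⟩
  · have e1 := Submodule.finrank_quotient_add_finrank (LinearMap.ker bb)
    rw [bb.quotKerEquivRange.finrank_eq, Module.finrank_fintype_fun_eq_card] at e1
    have e2 := Submodule.finrank_quotient_add_finrank (LinearMap.ker dd)
    rw [dd.quotKerEquivRange.finrank_eq, Module.finrank_fintype_fun_eq_card,
      hdd, finrank_ker_coboundary hc] at e2
    have e3 := Submodule.finrank_quotient_add_finrank D'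
    rw [(Submodule.comapSubtypeEquivOfLe hDK).finrank_eq] at e3
    have e4 := finrank_range_faceMap hc
    rw [← hbb] at e4
    change _ + Module.finrank ℤ K = _ at e1
    change Module.finrank ℤ D + _ = _ at e2
    omega
  · refine LinearMap.ext fun v => ?_
    have hb : bb (dd v) = 0 := faceMap_coboundary σ τ ℤ ℤ v
    have : g (dd v) ∈ D' := by
      show ((g (dd v) : K) : E → ℤ) ∈ D
      simp [g, hb, D]
    show q (g (dd v)) = 0
    show e (D'.mkQ (g (dd v))) = 0
    rw [Submodule.mkQ_apply, (Submodule.Quotient.mk_eq_zero D').mpr this, map_zero]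

end

end Fermat.Agent.Cosets.Graph
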