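import Fermat.Agent.Cosets.Presentation
import Fermat.Agent.Cosets.GraphCohomology

/-!
# Cocycles on a finite `PSL(2, ℤ)`-set and cohomology of the coset graph

## Main results

* `exists_cocycle`, `cocycleOf`: the cocycle of an edge function `y`, with value `0` at `S` and
  the coboundary of `y` at `U = T S`.
* `periodOf`: its restriction to the stabiliser of a base point.
* `faceMap_eq_cocycle`: the face map is the value of the cocycle at the primitive parabolic
  element of the orbit of `T`.
-/

set_option autoImplicit false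

open scoped MatrixGroups
open ModularGroup Fermat.Agent.Cosets.Presentation

namespace Fermat.Agent.Cosets.Cocycle

noncomputable section

variable {X : Type*} [MulAction SL(2, ℤ) X] {A : Type*} [AddCommGroup A]

/-- Additive cocycles `G → (X → A)`. -/
def IsCocycle (c : SL(2, ℤ) → X → A) : Prop :=
  ∀ g h x, c (g * h) x = c g (h • x) + c h x

namespace IsCocycle

variable {c d : SL(2, ℤ) → X → A}

theorem map_one (hc : IsCocycle c) (x : X) : c 1 x = 0 := by
  simpa using hc 1 1 x

theorem map_inv (hc : IsCocycle c) (g : SL(2, ℤ)) (x : X) : c g⁻¹ (g • x) = -c g x := by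
  rw [eq_neg_iff_add_eq_zero, ← hc, inv_mul_cancel, hc.map_one]

theorem map_inv' (hc : IsCocycle c) (g : SL(2, ℤ)) (x : X) : c g⁻¹ x = -c g (g⁻¹ • x) := by
  rw [← hc.map_inv, smul_inv_smul]

theorem ext (hc : IsCocycle c) (hd : IsCocycle d) (hS : ∀ x, c S x = d S x)
    (hU : ∀ x, c matU x = d matU x) (g : SL(2, ℤ)) (x : X) : c g x = d g x := by
  let H : Subgroup SL(2, ℤ) :=
    { carrier := {g | ∀ x, c g x = d g x}
      one_mem' := fun x => by rw [hc.map_one, hd.map_one]
      mul_mem' := fun {a b} ha hb x => by rw [hc, hd, ha, hb]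
      inv_mem' := fun {a} ha x => by rw [hc.map_inv', hd.map_inv', ha] }
  exact mem_of_S_matU (H := H) hS hU g x

theorem conj (hc : IsCocycle c) (r g : SL(2, ℤ)) {x : X} (hx : g • x = x) :
    c (r * g * r⁻¹) (r • x) = c g x := by
  rw [hc, inv_smul_smul, hc, hx, hc.map_inv]; abel

theorem map_pow_mul (hc : IsCocycle c) {g : SL(2, ℤ)} {x : X} (p : ℕ) (hp : g ^ p • x = x)
    (k : ℕ) : c (g ^ (p * k)) x = k • c (g ^ p) x := by
  induction k with
  | zero => simp [hc.map_one]
  | succ k ih => rw [Nat.mul_succ, pow_add, hc, hp, ih, succ_nsmul]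

theorem map_pow (hc : IsCocycle c) (g : SL(2, ℤ)) (x : X) (n : ℕ) :
    c (g ^ n) x = ∑ i ∈ Finset.range n, c g (g ^ i • x) := by
  induction n with
  | zero => simp [hc.map_one]
  | succ n ih => rw [pow_succ', hc, ih, Finset.sum_range_succ, add_comm]

/-- A cocycle is a coboundary along a single element iff it vanishes on fixed powers. -/
theorem exists_primitive (hc : IsCocycle c) (g : SL(2, ℤ))
    (h : ∀ (n : ℤ) (x : X), g ^ n • x = x → c (g ^ n) x = 0) :
    ∃ w : X → A, ∀ x, c g x = w (g • x) - w x := by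
  classical
  let s := MulAction.orbitRel (Subgroup.zpowers g) X
  let rep : X → X := fun x => (Quotient.mk s x).out
  have hrep : ∀ x, ∃ k : ℤ, g ^ k • rep x = x := by
    intro x
    obtain ⟨⟨a, ha⟩, hax⟩ :=
        MulAction.orbitRel_apply.mp (s.symm (Quotient.exact (Quotient.out_eq (Quotient.mk s x))))
    obtain ⟨k, rfl⟩ := Subgroup.mem_zpowers_iff.mp ha
    exact ⟨k, hax⟩
  choose k hk using hrep
  have key : ∀ (z : X) (a b : ℤ), g ^ a • z = g ^ b • z → c (g ^ a) z = c (g ^ b) z := by
    intro z a b hab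
    have hfix : g ^ (b - a) • (g ^ a • z) = g ^ a • z := by
      rw [← mul_smul, ← zpow_add, sub_add_cancel, hab]
    have h2 := hc (g ^ (b - a)) (g ^ a) z
    rw [← zpow_add, sub_add_cancel, h _ _ hfix, zero_add] at h2
    exact h2.symm
  refine ⟨fun x => c (g ^ k x) (rep x), fun x => ?_⟩
  have e : rep (g • x) = rep x := by
    refine congrArg Quotient.out (Quotient.sound (a := g • x) (b := x) ?_)
    exact MulAction.orbitRel_apply.mpr ⟨⟨g, Subgroup.mem_zpowers g⟩, rfl⟩
  have h1 : g ^ (1 + k x) • rep x = g • x := by rw [zpow_add, zpow_one, mul_smul, hk]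
  have h2 : g ^ k (g • x) • rep x = g • x := by rw [← e, hk]
  show _ = c (g ^ k (g • x)) (rep (g • x)) - c (g ^ k x) (rep x)
  rw [e, key _ _ _ (h2.trans h1.symm), zpow_add, zpow_one, hc, hk]
  abel

theorem gauge (hc : IsCocycle c) (w : X → A) :
    IsCocycle (fun g x => c g x - w (g • x) + w x) := by
  intro g h x
  simp only [hc g h x, mul_smul]
  abel

end IsCocycle

/-- The fixed point hypothesis on the action: `-1` acts trivially. -/
def TrivNegOne (X : Type*) [MulAction SL(2, ℤ) X] : Prop := ∀ x : X, (-1 : SL(2, ℤ)) • x = x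

variable (hneg : TrivNegOne X)
include hneg

/-- Every edge function `y` gives a cocycle with value `0` at `S` and `y (U x) - y x` at `U`. -/
theorem exists_cocycle (y : X → A) :
    ∃ c : SL(2, ℤ) → X → A, IsCocycle c ∧ (∀ x, c S x = 0) ∧
      ∀ x, c matU x = y (matU • x) - y x := by
  let s : Equiv.Perm (X × A) := Equiv.prodCongr (MulAction.toPerm S) (Equiv.refl A)
  let u : Equiv.Perm (X × A) :=
    { toFun := fun p => (matU • p.1, p.2 + (y (matU • p.1) - y p.1))
      invFun := fun p => (matU⁻¹ • p.1, p.2 - (y p.1 - y (matU⁻¹ • p.1)))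
      left_inv := fun p => by simp
      right_inv := fun p => by simp }
  have hs : s ^ 2 = 1 := by
    ext p
    · show S • S • p.1 = p.1
      rw [← mul_smul, S_mul_S, hneg]
    · rfl
  have hu : u ^ 3 = 1 := by
    have h3 : ∀ x : X, matU • matU • matU • x = x := fun x => by
      rw [← mul_smul, ← mul_smul, ← pow_three', matU_pow_three, hneg]
    ext p
    · exact h3 p.1
    · show p.2 + (y (matU • p.1) - y p.1) + (y (matU • matU • p.1) - y (matU • p.1))
        + (y (matU • matU • matU • p.1) - y (matU • matU • p.1)) = p.2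
      rw [h3]; abel
  obtain ⟨ρ, hρS, hρU, -⟩ := exists_hom s u hs hu
  let H : Subgroup SL(2, ℤ) :=
    { carrier := {g | ∀ p : X × A, ρ g p = (g • p.1, p.2 + (ρ g (p.1, 0)).2)}
      one_mem' := fun p => by simp
      mul_mem' := fun {a b} ha hb p => by
        simp only [Set.mem_ofPred_eq] at ha hb
        simp only [map_mul, Equiv.Perm.mul_apply]
        rw [hb p, ha, hb (p.1, 0)]
        simp only [zero_add]
        rw [ha (b • p.1, (ρ b (p.1, 0)).2), mul_smul]
        ext
        · rfl
        · simp; abel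
      inv_mem' := fun {a} ha p => by
        simp only [Set.mem_ofPred_eq] at ha
        simp only [map_inv, Equiv.Perm.inv_def]
        have e : ∀ q : X × A, (ρ a).symm q
            = (a⁻¹ • q.1, q.2 - (ρ a (a⁻¹ • q.1, 0)).2) := by
          intro q
          rw [Equiv.symm_apply_eq, ha]
          simp
        rw [e p, e (p.1, 0)]
        ext
        · rfl
        · simp; abel }
  have hS : S ∈ H := by
    intro p
    rw [hρS]
    ext <;> simp [s]
  have hU : matU ∈ H := by
    intro p
    rw [hρU]
    ext <;> simp [u]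
  refine ⟨fun g x => (ρ g (x, 0)).2, ?_, fun x => ?_, fun x => ?_⟩
  · intro g h x
    show (ρ (g * h) (x, 0)).2 = _
    rw [map_mul, Equiv.Perm.mul_apply, mem_of_S_matU hS hU h (x, 0),
      mem_of_S_matU hS hU g (h • (x, (0 : A)).1, _)]
    simp [add_comm]
  · show (ρ S (x, 0)).2 = 0
    rw [hρS]; rfl
  · show (ρ matU (x, 0)).2 = _
    rw [hρU]; simp [u]

/-- The cocycle attached to an edge function. -/
def cocycleOf (y : X → A) : SL(2, ℤ) → X → A :=
  (exists_cocycle hneg y).choose

theorem cocycleOf_isCocycle (y : X → A) : IsCocycle (cocycleOf hneg y) :=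
  (exists_cocycle hneg y).choose_spec.1

theorem cocycleOf_S (y : X → A) (x : X) : cocycleOf hneg y S x = 0 :=
  (exists_cocycle hneg y).choose_spec.2.1 x

theorem cocycleOf_matU (y : X → A) (x : X) :
    cocycleOf hneg y matU x = y (matU • x) - y x :=
  (exists_cocycle hneg y).choose_spec.2.2 x

theorem cocycleOf_eq {y : X → A} {c : SL(2, ℤ) → X → A} (hc : IsCocycle c)
    (hS : ∀ x, c S x = 0) (hU : ∀ x, c matU x = y (matU • x) - y x) :
    cocycleOf hneg y = c := by
  funext g x
  exact (cocycleOf_isCocycle hneg y).ext hc (fun z => by rw [cocycleOf_S, hS])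
    (fun z => by rw [cocycleOf_matU, hU]) g x

theorem cocycleOf_add (y z : X → A) :
    cocycleOf hneg (y + z) = cocycleOf hneg y + cocycleOf hneg z := by
  refine cocycleOf_eq hneg (fun g h x => ?_) (fun x => ?_) (fun x => ?_)
  · simp only [Pi.add_apply]
    rw [cocycleOf_isCocycle hneg y g h x, cocycleOf_isCocycle hneg z g h x]; abel
  · simp [cocycleOf_S]
  · simp [cocycleOf_matU]; abel

theorem cocycleOf_smul {R : Type*} [Semiring R] [Module R A] (r : R) (y : X → A) :
    cocycleOf hneg (r • y) = r • cocycleOf hneg y := by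
  refine cocycleOf_eq hneg (fun g h x => ?_) (fun x => ?_) (fun x => ?_)
  · simp [cocycleOf_isCocycle hneg y g h x]
  · simp [cocycleOf_S]
  · simp [cocycleOf_matU, smul_sub]

/-- The homomorphism on a stabiliser attached to an edge function. -/
def periodOf (R : Type*) [Semiring R] [Module R A] (x₀ : X) :
    (X → A) →ₗ[R] (Additive (MulAction.stabilizer SL(2, ℤ) x₀) →+ A) where
  toFun y :=
    { toFun := fun γ =>
          cocycleOf hneg y ((Additive.toMul γ : MulAction.stabilizer _ x₀) : SL(2, ℤ)) x₀
      map_zero' := (cocycleOf_isCocycle hneg y).map_one x₀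
      map_add' := fun γ δ => by
        rw [toMul_add, Subgroup.coe_mul]
        rw [cocycleOf_isCocycle hneg y, MulAction.mem_stabilizer_iff.mp (Additive.toMul δ).2] }
  map_add' y z := by
    ext γ
    simp [cocycleOf_add]
  map_smul' r y := by
    ext γ
    simp [cocycleOf_smul]

/-- `S` as a permutation. -/
abbrev permS (X : Type*) [MulAction SL(2, ℤ) X] : Equiv.Perm X := MulAction.toPerm (S : SL(2, ℤ))

/-- `U = T S` as a permutation. -/
abbrev permU (X : Type*) [MulAction SL(2, ℤ) X] : Equiv.Perm X := MulAction.toPerm matU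

include hneg

theorem permU_mul_permS (x : X) : (permU X * permS X) x = (T : SL(2, ℤ)) • x := by
  show matU • S • x = T • x
  rw [← mul_smul, matU_def, mul_assoc, S_mul_S, mul_smul, hneg]

theorem pow_permU_mul_permS (n : ℕ) (x : X) :
    ((permU X * permS X) ^ n) x = (T : SL(2, ℤ)) ^ n • x := by
  induction n with
  | zero => simp
  | succ n ih => rw [pow_succ', Equiv.Perm.mul_apply, ih, permU_mul_permS hneg, pow_succ', mul_smul]

theorem cocycleOf_neg_one (y : X → A) (x : X) : cocycleOf hneg y (-1) x = 0 := by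
  rw [← S_mul_S, cocycleOf_isCocycle hneg y, cocycleOf_S, cocycleOf_S, add_zero]

theorem cocycleOf_neg (y : X → A) (g : SL(2, ℤ)) (x : X) :
    cocycleOf hneg y (-g) x = cocycleOf hneg y g x := by
  rw [← neg_one_mul g, cocycleOf_isCocycle hneg y, cocycleOf_neg_one hneg, zero_add]

theorem neg_smul_eq (g : SL(2, ℤ)) (x : X) : (-g) • x = g • x := by
  rw [← neg_one_mul g, mul_smul, hneg]

theorem cocycleOf_T (y : X → A) (x : X) :
    cocycleOf hneg y T x = y ((T : SL(2, ℤ)) • x) - y ((S : SL(2, ℤ)) • x) := by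
  have h := cocycleOf_isCocycle hneg y matU S x
  rw [matU_def, mul_assoc, S_mul_S, mul_neg, mul_one, cocycleOf_neg hneg, ← matU_def,
    cocycleOf_S, add_zero, cocycleOf_matU] at h
  rwa [show matU • S • x = (T : SL(2, ℤ)) • x from permU_mul_permS hneg x] at h

variable [Fintype X] (R : Type*) [Semiring R] [Module R A]

/-- The face map is the value of the cocycle at the primitive parabolic element of the face. -/
theorem faceMap_eq_cocycle (y : X → A) (x : X) :
    Graph.faceMap (permS X) (permU X) R A y (Quotient.mk _ x)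
      = cocycleOf hneg y ((T : SL(2, ℤ)) ^ Function.minimalPeriod ((T : SL(2, ℤ)) • ·) x) x := by
  classical
  set p := Function.minimalPeriod ((T : SL(2, ℤ)) • ·) x with hp
  have hiter : ∀ (n : ℕ) (z : X), ((T : SL(2, ℤ)) • ·)^[n] z = (T : SL(2, ℤ)) ^ n • z :=
      fun n z => by
    rw [smul_iterate]
  have hper : (T : SL(2, ℤ)) ^ p • x = x := by
    rw [← hiter]; exact Function.iterate_minimalPeriod
  have hpos : 0 < p := by
    refine Function.IsPeriodicPt.minimalPeriod_pos (orderOf_pos (permU X * permS X)) ?_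
    show _ = x
    rw [hiter, ← pow_permU_mul_permS hneg, pow_orderOf_eq_one, Equiv.Perm.one_apply]
  rw [(cocycleOf_isCocycle hneg y).map_pow, Graph.faceMap_apply, ← Finset.sum_filter]
  simp only [cocycleOf_T hneg, ← mul_smul, ← pow_succ']
  rw [Finset.sum_sub_distrib, Finset.sum_sub_distrib]
  have hshift : ∑ i ∈ Finset.range p, y ((T : SL(2, ℤ)) ^ (i + 1) • x)
      = ∑ i ∈ Finset.range p, y ((T : SL(2, ℤ)) ^ i • x) := by
    have h1 := Finset.sum_range_succ' (fun i => y ((T : SL(2, ℤ)) ^ i • x)) p
    rw [Finset.sum_range_succ, hper] at h1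
    simpa using h1.symm
  have himg : ∀ f : X → A,
      ∑ e ∈ Finset.univ.filter (fun e => (Quotient.mk _ e : Graph.Face (permS X) (permU X))
          = Quotient.mk _ x), f e = ∑ i ∈ Finset.range p, f ((T : SL(2, ℤ)) ^ i • x) := by
    intro f
    symm
    refine Finset.sum_bij (fun i _ => (T : SL(2, ℤ)) ^ i • x) ?_ ?_ ?_ (fun _ _ => rfl)
    · intro i _
      rw [Finset.mem_filter, ← pow_permU_mul_permS hneg]
      exact ⟨Finset.mem_univ _, Quotient.sound
        ((Equiv.Perm.sameCycle_pow_left (f := permU X * permS X)).mpr ⟨0, rfl⟩)⟩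
    · intro i hi j hj hij
      rw [Finset.mem_range] at hi hj
      exact Function.iterate_injOn_Iio_minimalPeriod hi hj (by simpa [hiter] using hij)
    · intro e he
      have hsc : (permU X * permS X).SameCycle x e :=
        Equiv.Perm.SameCycle.symm (Quotient.exact (Finset.mem_filter.mp he).2)
      obtain ⟨i, hi⟩ := hsc.exists_nat_pow_eq
      refine ⟨i % p, Finset.mem_range.mpr (Nat.mod_lt _ hpos), ?_⟩
      rw [← hi, pow_permU_mul_permS hneg, ← hiter, ← hiter, hp,
        Function.iterate_mod_minimalPeriod_eq]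
  rw [hshift, himg, himg (fun e => y (permS X e))]
  simp [mul_smul, MulAction.toPerm_apply]

end

end Fermat.Agent.Cosets.Cocycle
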