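import Fermat.Agent.Cosets.ParabolicRank

/-!
# The lattice `Hom_par,ell(Γ₀(N), ℤ)` and coordinates for other coefficients

## Main results

* `parGen`, `parVal`: generators of the lattice and their values.
* `parCoord`, `parCoord_apply`: the coordinate isomorphism for every coefficient module.
-/

set_option autoImplicit false

open scoped MatrixGroups
open CongruenceSubgroup

namespace Fermat.Agent.Cosets

noncomputable section

variable (N : ℕ) [NeZero N]

/-- Generators of the lattice of parabolic homomorphisms `Γ₀(N) → ℤ`. -/
def parGen : Fin (homRank N) → parEllHoms ℤ (Gamma0 N) ℤ :=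
  (exists_integral_basis_parEllHoms.{0, 0} N).choose

/-- The value of the `j`-th generator at `γ`. -/
def parVal (j : Fin (homRank N)) (γ : Gamma0 N) : ℤ :=
  (parGen N j : Additive (Gamma0 N) →+ ℤ) (Additive.ofMul γ)

variable (R : Type) [Semiring R] (A : Type) [AddCommGroup A] [Module R A]

/-- Coordinates: `a ↦ (γ ↦ ∑ j, parVal j γ • a j)`. -/
def parCoord : (Fin (homRank N) → A) ≃ₗ[R] parEllHoms R (Gamma0 N) A :=
  ((exists_integral_basis_parEllHoms.{0, 0} N).choose_spec R A).choose

/-- The value of the homomorphism with given coordinates. -/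
theorem parCoord_apply (a : Fin (homRank N) → A) (γ : Gamma0 N) :
    (parCoord N R A a : Additive (Gamma0 N) →+ A) (Additive.ofMul γ)
      = ∑ j, parVal N j γ • a j :=
  ((exists_integral_basis_parEllHoms.{0, 0} N).choose_spec R A).choose_spec a _

end

end Fermat.Agent.Cosets
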