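import Mathlib

/-!
# `PSL(2, ℤ)` is the free product `ℤ/2 * ℤ/3`

## Main results

* `exists_hom`: for any group `K` and `s u : K` with `s ^ 2 = 1`, `u ^ 3 = 1` there is a
  homomorphism `SL(2, ℤ) →* K` sending `S ↦ s`, `T * S ↦ u` and `-1 ↦ 1`.  The injectivity of
  `ℤ/2 * ℤ/3 → PSL(2, ℤ)` is the ping-pong lemma.
-/

set_option autoImplicit false

open scoped MatrixGroups
open ModularGroup Monoid

namespace Fermat.Agent.Cosets.Presentation

/-- `U = T S`, of projective order three. -/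
def matU : SL(2, ℤ) := T * S

theorem matU_def : matU = T * S := rfl

theorem S_mul_S : S * S = (-1 : SL(2, ℤ)) := by decide

theorem matU_pow_three : matU ^ 3 = (-1 : SL(2, ℤ)) := by decide

theorem coe_matU : (matU : Matrix (Fin 2) (Fin 2) ℤ) = !![1, -1; 1, 0] := by decide

theorem T_eq_matU_mul_inv : (T : SL(2, ℤ)) = matU * S⁻¹ := by
  rw [matU_def, mul_inv_cancel_right]

theorem closure_S_matU : Subgroup.closure ({S, matU} : Set SL(2, ℤ)) = ⊤ := by
  rw [eq_top_iff, ← SpecialLinearGroup.SL2Z_generators, Subgroup.closure_le]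
  rintro g (rfl | rfl)
  · exact Subgroup.subset_closure (Or.inl rfl)
  · rw [SetLike.mem_coe, T_eq_matU_mul_inv]
    exact mul_mem (Subgroup.subset_closure (Or.inr rfl))
      (inv_mem (Subgroup.subset_closure (Or.inl rfl)))

theorem mem_of_S_matU {H : Subgroup SL(2, ℤ)} (hS : S ∈ H) (hU : matU ∈ H) (g : SL(2, ℤ)) :
    g ∈ H := by
  have h : Subgroup.closure ({S, matU} : Set SL(2, ℤ)) ≤ H := by
    rw [Subgroup.closure_le]
    rintro x (rfl | rfl)
    exacts [hS, hU]
  exact h (closure_S_matU ▸ Subgroup.mem_top g)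

/-- The centre `{±1}` of `SL(2, ℤ)`. -/
abbrev signs : Subgroup SL(2, ℤ) := Subgroup.center SL(2, ℤ)

theorem neg_one_mem_signs : (-1 : SL(2, ℤ)) ∈ signs := by
  rw [Subgroup.mem_center_iff]; intro g; simp

theorem prod_col_eq_of_mk_eq {g h : SL(2, ℤ)}
    (e : (QuotientGroup.mk g : SL(2, ℤ) ⧸ signs) = QuotientGroup.mk h) :
    h 0 0 * h 1 0 = g 0 0 * g 1 0 := by
  obtain ⟨r, hr, hz⟩ :=
    Matrix.SpecialLinearGroup.mem_center_iff.mp (QuotientGroup.eq.mp e)
  have hh : (h : Matrix (Fin 2) (Fin 2) ℤ)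
      = (g : Matrix (Fin 2) (Fin 2) ℤ) * Matrix.scalar (Fin 2) r := by
    rw [hz, ← Matrix.SpecialLinearGroup.coe_mul, mul_inv_cancel_left]
  have h00 : h 0 0 = g 0 0 * r := by rw [hh, Matrix.scalar_apply, Matrix.mul_diagonal]
  have h10 : h 1 0 = g 1 0 * r := by rw [hh, Matrix.scalar_apply, Matrix.mul_diagonal]
  have hr2 : r ^ 2 = 1 := by simpa using hr
  rw [h00, h10]; linear_combination (g 0 0 * g 1 0) * hr2

/-- Hom out of `ℤ/n` attached to an element killed by `n`. -/
def zmodHom {K : Type*} [Group K] (n : ℕ) (g : K) (hg : g ^ n = 1) :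
    Multiplicative (ZMod n) →* K :=
  AddMonoidHom.toMultiplicativeLeft
    (ZMod.lift n ⟨zmultiplesHom (Additive K) (Additive.ofMul g), by
      rw [zmultiplesHom_apply, natCast_zsmul, ← ofMul_pow, hg, ofMul_one]⟩)

theorem zmodHom_one {K : Type*} [Group K] (n : ℕ) (g : K) (hg : g ^ n = 1) :
    zmodHom n g hg (Multiplicative.ofAdd 1) = g := by
  show Additive.toMul (ZMod.lift n _ (1 : ZMod n)) = g
  rw [← Int.cast_one, ZMod.lift_coe]
  simp

/-- The orders of the two free factors. -/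
def ord : Bool → ℕ
  | false => 2
  | true => 3

/-- The free factors. -/
abbrev Factor (b : Bool) : Type := Multiplicative (ZMod (ord b))

theorem mkS_pow_two : (QuotientGroup.mk S : SL(2, ℤ) ⧸ signs) ^ 2 = 1 := by
  rw [pow_two, ← QuotientGroup.mk_mul, S_mul_S, QuotientGroup.eq_one_iff]
  exact neg_one_mem_signs

theorem mkU_pow_three : (QuotientGroup.mk matU : SL(2, ℤ) ⧸ signs) ^ 3 = 1 := by
  rw [← QuotientGroup.mk_pow, matU_pow_three, QuotientGroup.eq_one_iff]
  exact neg_one_mem_signs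

/-- The two factor maps. -/
def factorHom : ∀ b, Factor b →* SL(2, ℤ) ⧸ signs
  | false => zmodHom 2 (QuotientGroup.mk S) mkS_pow_two
  | true => zmodHom 3 (QuotientGroup.mk matU) mkU_pow_three

/-- The ping-pong sets. -/
def table : Bool → Set (SL(2, ℤ) ⧸ signs)
  | false => {q | ∃ g, QuotientGroup.mk g = q ∧ g 0 0 * g 1 0 < 0}
  | true => {q | ∃ g, QuotientGroup.mk g = q ∧ 0 < g 0 0 * g 1 0}

theorem lift_factorHom_injective : Function.Injective (CoprodI.lift factorHom) := by
  refine CoprodI.lift_injective_of_ping_pong factorHom (Or.inr ⟨true, ?_⟩) table ?_ ?_ ?_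
  · show 3 ≤ Cardinal.mk (Multiplicative (ZMod 3))
    simp
  · rintro (_ | _)
    · exact ⟨_, S * (T * S), rfl, by decide⟩
    · exact ⟨_, T * S, rfl, by decide⟩
  · rintro (_ | _) (_ | _) hij
    · exact absurd rfl hij
    · refine Set.disjoint_left.mpr ?_
      rintro q ⟨g, rfl, hg⟩ ⟨g', hg', hg''⟩
      rw [prod_col_eq_of_mk_eq hg'] at hg
      omega
    · refine Set.disjoint_left.mpr ?_
      rintro q ⟨g, rfl, hg⟩ ⟨g', hg', hg''⟩
      rw [prod_col_eq_of_mk_eq hg'] at hg
      omega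
    · exact absurd rfl hij
  · rintro (_ | _) (_ | _) hij h hh
    · exact absurd rfl hij
    · rintro q ⟨_, ⟨g, rfl, hg⟩, rfl⟩
      have key : ∀ k : Multiplicative (ZMod 2), k ≠ 1 → k = Multiplicative.ofAdd 1 := by decide
      obtain rfl := key h hh
      show (zmodHom 2 _ mkS_pow_two) (Multiplicative.ofAdd 1) • (QuotientGroup.mk g) ∈ _
      rw [zmodHom_one, smul_eq_mul, ← QuotientGroup.mk_mul]
      refine ⟨S * g, rfl, ?_⟩
      simp only [Matrix.SpecialLinearGroup.coe_mul, coe_S, Matrix.mul_apply, Fin.sum_univ_two]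
      simp
      linarith
    · rintro q ⟨_, ⟨g, rfl, hg⟩, rfl⟩
      have key : ∀ k : Multiplicative (ZMod 3), k ≠ 1 →
          k = Multiplicative.ofAdd 1 ∨ k = Multiplicative.ofAdd 1 ^ 2 := by decide
      show (zmodHom 3 _ mkU_pow_three) h • (QuotientGroup.mk g) ∈ _
      rcases key h hh with rfl | rfl
      · rw [zmodHom_one, smul_eq_mul, ← QuotientGroup.mk_mul]
        refine ⟨matU * g, rfl, ?_⟩
        simp only [Matrix.SpecialLinearGroup.coe_mul, coe_matU, Matrix.mul_apply,
          Fin.sum_univ_two]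
        simp
        nlinarith [mul_self_nonneg (g 0 0)]
      · rw [map_pow, zmodHom_one, smul_eq_mul, ← QuotientGroup.mk_pow, ← QuotientGroup.mk_mul]
        refine ⟨matU ^ 2 * g, rfl, ?_⟩
        simp only [pow_two, Matrix.SpecialLinearGroup.coe_mul, coe_matU, Matrix.mul_apply,
          Fin.sum_univ_two]
        simp
        nlinarith [mul_self_nonneg (g 1 0)]
    · exact absurd rfl hij

theorem lift_factorHom_surjective : Function.Surjective (CoprodI.lift factorHom) := by
  intro q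
  obtain ⟨g, rfl⟩ := QuotientGroup.mk'_surjective signs q
  refine mem_of_S_matU (H := (CoprodI.lift factorHom).range.comap (QuotientGroup.mk' signs))
    ⟨CoprodI.of (M := Factor) (i := false) (Multiplicative.ofAdd 1), ?_⟩
    ⟨CoprodI.of (M := Factor) (i := true) (Multiplicative.ofAdd 1), ?_⟩ g
  · rw [CoprodI.lift_of]; exact zmodHom_one _ _ mkS_pow_two
  · rw [CoprodI.lift_of]; exact zmodHom_one _ _ mkU_pow_three

/-- Universal property of `PSL(2, ℤ) = ℤ/2 * ℤ/3`. -/
theorem exists_hom {K : Type*} [Group K] (s u : K) (hs : s ^ 2 = 1) (hu : u ^ 3 = 1) :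
    ∃ ρ : SL(2, ℤ) →* K, ρ S = s ∧ ρ matU = u ∧ ρ (-1) = 1 := by
  let e := MulEquiv.ofBijective (CoprodI.lift factorHom)
    ⟨lift_factorHom_injective, lift_factorHom_surjective⟩
  let k : ∀ b, Factor b →* K
    | false => zmodHom 2 s hs
    | true => zmodHom 3 u hu
  refine ⟨(CoprodI.lift k).comp (e.symm.toMonoidHom.comp (QuotientGroup.mk' signs)), ?_, ?_, ?_⟩
  · have : e.symm (QuotientGroup.mk S)
        = CoprodI.of (M := Factor) (i := false) (Multiplicative.ofAdd 1) := by
      simp only [e, MulEquiv.symm_apply_eq, MulEquiv.ofBijective_apply,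
        CoprodI.lift_of]; exact (zmodHom_one _ _ mkS_pow_two).symm
    show CoprodI.lift k (e.symm (QuotientGroup.mk S)) = s
    rw [this, CoprodI.lift_of]; exact zmodHom_one _ _ hs
  · have : e.symm (QuotientGroup.mk matU)
        = CoprodI.of (M := Factor) (i := true) (Multiplicative.ofAdd 1) := by
      simp only [e, MulEquiv.symm_apply_eq, MulEquiv.ofBijective_apply,
        CoprodI.lift_of]; exact (zmodHom_one _ _ mkU_pow_three).symm
    show CoprodI.lift k (e.symm (QuotientGroup.mk matU)) = u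
    rw [this, CoprodI.lift_of]; exact zmodHom_one _ _ hu
  · show CoprodI.lift k (e.symm (QuotientGroup.mk (-1 : SL(2, ℤ)))) = 1
    rw [(QuotientGroup.eq_one_iff _).mpr neg_one_mem_signs, map_one, map_one]

end Fermat.Agent.Cosets.Presentation
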